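import Mathlib
import Fermat.Prelude.Def_EllipticCurve_FrobeniusTrace

/-!
# Places of an algebraic closure of `ℚ`: basic API

Places are valuation subrings `A` of `AlgebraicClosure ℚ` with `A.LiesOverPrime q`.
The general lemmas hold for any valuation subring.
-/

set_option autoImplicit false

open scoped Pointwise
open ValuationSubring IsLocalRing

noncomputable section

namespace FLTA.Galois

instance qbar_isAlgebraic : Algebra.IsAlgebraic ℚ (AlgebraicClosure ℚ) :=
  AlgebraicClosure.isAlgebraic ℚ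

instance qbar_isGalois : IsGalois ℚ (AlgebraicClosure ℚ) :=
  isGalois_iff.mpr ⟨inferInstance, normal_iff.mpr fun x =>
    ⟨(qbar_isAlgebraic.isAlgebraic x).isIntegral, IsAlgClosed.splits _⟩⟩

local notation "Qbar" => AlgebraicClosure ℚ
local notation "Γ" => AlgebraicClosure ℚ ≃ₐ[ℚ] AlgebraicClosure ℚ

section General

variable {K L : Type*} [Field K] [Field L] [Algebra K L] {A : ValuationSubring L}
variable {σ τ : L ≃ₐ[K] L} {q : ℕ}

/-- Algebraic integers belong to every valuation subring. -/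
theorem mem_of_isIntegral {x : L} (hx : IsIntegral ℤ x) : x ∈ A := by
  have h : IsIntegral A x := hx.tower_top
  obtain ⟨y, hy⟩ := IsIntegrallyClosed.isIntegral_iff.mp h
  exact hy ▸ y.2

theorem natCast_mem_valuationSubring (n : ℕ) : (n : L) ∈ A := natCast_mem A n

theorem one_not_mem_nonunits : (1 : L) ∉ A.nonunits := by
  simp [ValuationSubring.mem_nonunits_iff]

/-- The residue map kills exactly the nonunits. -/
theorem residue_eq_zero_iff_mem_nonunits (x : A) :
    residue A x = 0 ↔ (x : L) ∈ A.nonunits := by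
  rw [residue_eq_zero_iff, coe_mem_nonunits_iff]

theorem residue_eq_iff_sub_mem_nonunits (x y : A) :
    residue A x = residue A y ↔ (x : L) - y ∈ A.nonunits := by
  rw [← sub_eq_zero, ← map_sub, residue_eq_zero_iff_mem_nonunits]; rfl

theorem mul_mem_nonunits_of_mem {x y : L} (hx : x ∈ A.nonunits) (hy : y ∈ A) :
    x * y ∈ A.nonunits := by
  rw [ValuationSubring.mem_nonunits_iff] at hx ⊢
  rw [map_mul]
  exact mul_lt_one_of_lt_of_le hx ((A.valuation_le_one_iff y).mpr hy)

theorem mem_decompositionSubgroup_iff :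
    σ ∈ A.decompositionSubgroup K ↔ ∀ x, σ x ∈ A ↔ x ∈ A := by
  rw [MulAction.mem_stabilizer_iff]
  constructor
  · intro h x
    have := ValuationSubring.smul_mem_pointwise_smul_iff (g := σ) (S := A) (x := x)
    rw [h] at this
    simpa [AlgEquiv.smul_def] using this
  · intro h
    ext x
    rw [ValuationSubring.mem_pointwise_smul_iff_inv_smul_mem, ← h (σ⁻¹ • x), ← AlgEquiv.smul_def,
      smul_inv_smul]

theorem apply_mem_of_mem_decompositionSubgroup (hσ : σ ∈ A.decompositionSubgroup K) {x : L}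
    (hx : x ∈ A) : σ x ∈ A := (mem_decompositionSubgroup_iff.mp hσ x).mpr hx

theorem apply_mem_nonunits_iff (hσ : σ ∈ A.decompositionSubgroup K) {x : L} :
    σ x ∈ A.nonunits ↔ x ∈ A.nonunits := by
  have h := mem_decompositionSubgroup_iff.mp hσ
  simp only [ValuationSubring.mem_nonunits_iff_or, ← map_inv₀, h, map_eq_zero]

theorem decomposition_smul_residue (hσ : σ ∈ A.decompositionSubgroup K) (x : A) :
    (⟨σ, hσ⟩ : A.decompositionSubgroup K) • residue A x =
      residue A ⟨σ x, apply_mem_of_mem_decompositionSubgroup hσ x.2⟩ := rfl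

theorem mem_inertiaSubgroupIn_iff :
    σ ∈ A.inertiaSubgroupIn K ↔
      σ ∈ A.decompositionSubgroup K ∧ ∀ x ∈ A, σ x - x ∈ A.nonunits := by
  constructor
  · rintro ⟨⟨s, hs⟩, hi, rfl⟩
    refine ⟨hs, fun x hx => ?_⟩
    have h1 : (⟨s, hs⟩ : A.decompositionSubgroup K) • residue A ⟨x, hx⟩ = residue A ⟨x, hx⟩ :=
      DFunLike.congr_fun (MonoidHom.mem_ker.mp hi) (residue A ⟨x, hx⟩)
    rw [decomposition_smul_residue, residue_eq_iff_sub_mem_nonunits] at h1
    exact h1
  · rintro ⟨hs, h⟩
    refine ⟨⟨σ, hs⟩, MonoidHom.mem_ker.mpr (RingEquiv.ext fun r => ?_), rfl⟩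
    obtain ⟨⟨x, hx⟩, rfl⟩ := IsLocalRing.residue_surjective r
    show (⟨σ, hs⟩ : A.decompositionSubgroup K) • residue A ⟨x, hx⟩ = residue A ⟨x, hx⟩
    rw [decomposition_smul_residue, residue_eq_iff_sub_mem_nonunits]
    exact h x hx

theorem inertiaSubgroupIn_le_decompositionSubgroup :
    A.inertiaSubgroupIn K ≤ A.decompositionSubgroup K :=
  fun _ h => (mem_inertiaSubgroupIn_iff.mp h).1

theorem isFrobeniusAt_iff :
    A.IsFrobeniusAt σ q ↔
      σ ∈ A.decompositionSubgroup K ∧ ∀ x ∈ A, σ x - x ^ q ∈ A.nonunits := by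
  constructor
  · rintro ⟨hs, h⟩
    refine ⟨hs, fun x hx => ?_⟩
    have h1 := h (residue A ⟨x, hx⟩)
    rw [decomposition_smul_residue, ← map_pow, residue_eq_iff_sub_mem_nonunits] at h1
    simpa using h1
  · rintro ⟨hs, h⟩
    refine ⟨hs, fun r => ?_⟩
    obtain ⟨⟨x, hx⟩, rfl⟩ := IsLocalRing.residue_surjective r
    rw [decomposition_smul_residue, ← map_pow, residue_eq_iff_sub_mem_nonunits]
    simpa using h x hx

theorem smul_valuationSubring_nonunits (g : L ≃ₐ[K] L) {x : L} :
    g x ∈ (g • A).nonunits ↔ x ∈ A.nonunits := by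
  simp only [ValuationSubring.mem_nonunits_iff_or, ← map_inv₀, map_eq_zero]
  rw [← AlgEquiv.smul_def, ValuationSubring.smul_mem_pointwise_smul_iff]

theorem liesOverPrime_smul_iff (g : L ≃ₐ[K] L) :
    (g • A).LiesOverPrime q ↔ A.LiesOverPrime q := by
  have h := smul_valuationSubring_nonunits (A := A) g (x := (q : L))
  rw [map_natCast] at h
  exact h

theorem decompositionSubgroup_smul_iff (g : L ≃ₐ[K] L) :
    σ ∈ (g • A).decompositionSubgroup K ↔ g⁻¹ * σ * g ∈ A.decompositionSubgroup K := by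
  simp only [MulAction.mem_stabilizer_iff, mul_smul, inv_smul_eq_iff]

theorem inertiaSubgroupIn_smul_iff (g : L ≃ₐ[K] L) :
    σ ∈ (g • A).inertiaSubgroupIn K ↔ g⁻¹ * σ * g ∈ A.inertiaSubgroupIn K := by
  rw [mem_inertiaSubgroupIn_iff, mem_inertiaSubgroupIn_iff, decompositionSubgroup_smul_iff]
  refine and_congr_right fun _ => ⟨fun h x hx => ?_, fun h x hx => ?_⟩
  · have := h (g x) (ValuationSubring.smul_mem_pointwise_smul g x A hx)
    rw [← smul_valuationSubring_nonunits (A := A) g]
    simpa [← AlgEquiv.smul_def, mul_smul, smul_sub] using this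
  · have hx' : g⁻¹ • x ∈ A := ValuationSubring.mem_pointwise_smul_iff_inv_smul_mem.mp hx
    have := (smul_valuationSubring_nonunits (A := A) g).mpr (h _ hx')
    simpa [← AlgEquiv.smul_def, mul_smul, smul_sub] using this

theorem isFrobeniusAt_smul (g : L ≃ₐ[K] L) (h : A.IsFrobeniusAt σ q) :
    (g • A).IsFrobeniusAt (g * σ * g⁻¹) q := by
  rw [isFrobeniusAt_iff] at h ⊢
  refine ⟨(decompositionSubgroup_smul_iff (A := A) g).mpr (by simpa only [mul_assoc, inv_mul_cancel_left, inv_mul_cancel, mul_one] using h.1), fun x hx => ?_⟩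
  have hx' : g⁻¹ • x ∈ A := ValuationSubring.mem_pointwise_smul_iff_inv_smul_mem.mp hx
  have := (smul_valuationSubring_nonunits (A := A) g).mpr (h.2 _ hx')
  simpa [← AlgEquiv.smul_def, mul_smul, smul_sub, smul_pow'] using this

theorem inertia_conj_mem (hσ : σ ∈ A.decompositionSubgroup K)
    (hτ : τ ∈ A.inertiaSubgroupIn K) : σ * τ * σ⁻¹ ∈ A.inertiaSubgroupIn K := by
  have hA : σ • A = A := hσ
  have h := (inertiaSubgroupIn_smul_iff (A := A) (σ := σ * τ * σ⁻¹) σ).mpr
    (by simpa [mul_assoc] using hτ)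
  rwa [hA] at h

theorem isFrobeniusAt_mul_inv_mem_inertia (h : A.IsFrobeniusAt σ q)
    (h' : A.IsFrobeniusAt τ q) : σ * τ⁻¹ ∈ A.inertiaSubgroupIn K := by
  rw [isFrobeniusAt_iff] at h h'
  rw [mem_inertiaSubgroupIn_iff]
  refine ⟨mul_mem h.1 (inv_mem h'.1), fun x hx => ?_⟩
  have hy : τ⁻¹ x ∈ A := apply_mem_of_mem_decompositionSubgroup (inv_mem h'.1) hx
  have h1 := h.2 _ hy
  have h2 := h'.2 _ hy
  have hx' : τ (τ⁻¹ x) = x := τ.apply_symm_apply x
  rw [hx'] at h2
  simpa [AlgEquiv.mul_apply] using sub_mem h1 h2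

theorem isFrobeniusAt_inv_mul_mem_inertia (h : A.IsFrobeniusAt σ q)
    (h' : A.IsFrobeniusAt τ q) : σ⁻¹ * τ ∈ A.inertiaSubgroupIn K := by
  have h1 : τ * σ⁻¹ ∈ A.inertiaSubgroupIn K := isFrobeniusAt_mul_inv_mem_inertia h' h
  have h2 := inertia_conj_mem (inv_mem h.mem_decompositionSubgroup) h1
  simpa [mul_assoc] using h2

theorem isFrobeniusAt_mul_inertia (h : A.IsFrobeniusAt σ q)
    (hτ : τ ∈ A.inertiaSubgroupIn K) : A.IsFrobeniusAt (σ * τ) q := by
  rw [isFrobeniusAt_iff] at h ⊢
  obtain ⟨ht, h2⟩ := mem_inertiaSubgroupIn_iff.mp hτ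
  refine ⟨mul_mem h.1 ht, fun x hx => ?_⟩
  have : σ (τ x) - σ x ∈ A.nonunits := by
    rw [← map_sub]; exact (apply_mem_nonunits_iff h.1).mpr (h2 x hx)
  simpa [AlgEquiv.mul_apply] using add_mem this (h.2 x hx)

theorem isFrobeniusAt_inertia_mul (h : A.IsFrobeniusAt σ q)
    (hτ : τ ∈ A.inertiaSubgroupIn K) : A.IsFrobeniusAt (τ * σ) q := by
  rw [isFrobeniusAt_iff] at h ⊢
  obtain ⟨ht, h2⟩ := mem_inertiaSubgroupIn_iff.mp hτ
  refine ⟨mul_mem ht h.1, fun x hx => ?_⟩
  have := h2 (σ x) (apply_mem_of_mem_decompositionSubgroup h.1 hx)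
  simpa [AlgEquiv.mul_apply] using add_mem this (h.2 x hx)

theorem isFrobeniusAt_pow_sub_mem_nonunits (h : A.IsFrobeniusAt σ q) (k : ℕ) {x : L}
    (hx : x ∈ A) : (σ ^ k) x - x ^ q ^ k ∈ A.nonunits := by
  rw [isFrobeniusAt_iff] at h
  induction k with
  | zero => simp
  | succ k ih =>
    have h1 : σ ((σ ^ k) x) - σ (x ^ q ^ k) ∈ A.nonunits := by
      rw [← map_sub]; exact (apply_mem_nonunits_iff h.1).mpr ih
    have h2 := h.2 (x ^ q ^ k) (pow_mem hx _)
    rw [pow_succ' σ, AlgEquiv.mul_apply, pow_succ q, pow_mul]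
    simpa using add_mem h1 h2

theorem inv_mem_of_not_mem_nonunits {x : L} (hx : x ∉ A.nonunits) : x⁻¹ ∈ A := by
  rw [ValuationSubring.mem_nonunits_iff_or, not_or, not_not] at hx
  exact hx.2

theorem mul_not_mem_nonunits {x y : L} (hx : x ∉ A.nonunits) (hy : y ∉ A.nonunits) :
    x * y ∉ A.nonunits := by
  rw [ValuationSubring.mem_nonunits_iff, not_lt] at hx hy ⊢
  rw [map_mul]; exact one_le_mul hx hy

theorem div_sub_div_mem_nonunits {a a' b b' : L} (ha : a ∈ A) (hb : b ∈ A)
    (hbn : b ∉ A.nonunits) (hbn' : b' ∉ A.nonunits)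
    (h1 : a - a' ∈ A.nonunits) (h2 : b - b' ∈ A.nonunits) :
    a / b - a' / b' ∈ A.nonunits := by
  have hb0 : b ≠ 0 := fun h => hbn (h ▸ A.nonunits.zero_mem)
  have hb0' : b' ≠ 0 := fun h => hbn' (h ▸ A.nonunits.zero_mem)
  have h3 : (a - a') * b - a * (b - b') ∈ A.nonunits :=
    sub_mem (mul_mem_nonunits_of_mem h1 hb) (by
      rw [mul_comm]; exact mul_mem_nonunits_of_mem h2 ha)
  have hbb : (b * b')⁻¹ ∈ A := inv_mem_of_not_mem_nonunits (mul_not_mem_nonunits hbn hbn')
  have key : a / b - a' / b' = -(((a' - a) * b + a * (b - b')) * (b * b')⁻¹) := by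
    field_simp
    ring
  rw [key]
  refine neg_mem (mul_mem_nonunits_of_mem ?_ hbb)
  have : (a' - a) * b + a * (b - b') = -((a - a') * b - a * (b - b')) := by ring
  rw [this]; exact neg_mem h3

end General

section Places

variable {A B : ValuationSubring Qbar} {σ τ : Γ} {q : ℕ}

private theorem exists_integral_div_aux (A : ValuationSubring Qbar) {x : Qbar} (hx : x ∈ A) :
    ∀ (n : ℕ) (f : Polynomial (integralClosure ℤ Qbar)), f.natDegree ≤ n →
      Polynomial.aeval x f = 0 → (∃ i, ((f.coeff i : integralClosure ℤ Qbar) : Qbar) ∉ A.nonunits) →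
      ∃ a b : Qbar, IsIntegral ℤ a ∧ IsIntegral ℤ b ∧ b ∉ A.nonunits ∧ x = a / b := by
  intro n
  induction n with
  | zero =>
    intro f hdeg hf hi
    obtain ⟨i, hi⟩ := hi
    obtain ⟨c, rfl⟩ := Polynomial.natDegree_eq_zero.mp (Nat.le_zero.mp hdeg)
    rw [Polynomial.aeval_C] at hf
    have hc : (c : Qbar) = 0 := hf
    refine absurd ?_ hi
    rw [Polynomial.coeff_C]
    split <;> simp [hc]
  | succ n ih =>
    intro f hdeg hf hi
    obtain ⟨i, hi⟩ := hi
    set a := f.coeff (n + 1) with ha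
    rcases hdeg.lt_or_eq with hlt | heq
    · exact ih f (by omega) hf ⟨i, hi⟩
    have hax : IsIntegral ℤ ((a : Qbar) * x) := by
      have h := isIntegral_leadingCoeff_smul f x hf
      rw [Polynomial.leadingCoeff, heq, ← ha, Algebra.smul_def] at h
      exact isIntegral_trans _ h
    by_cases han : (a : Qbar) ∈ A.nonunits
    · set c : integralClosure ℤ Qbar := ⟨(a : Qbar) * x, hax⟩ with hc
      refine ih (f - Polynomial.monomial (n + 1) a + Polynomial.monomial n c) ?_ ?_ ⟨i, ?_⟩
      · rw [Polynomial.natDegree_le_iff_coeff_eq_zero]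
        intro m hm
        simp only [Polynomial.coeff_add, Polynomial.coeff_sub, Polynomial.coeff_monomial]
        rcases (show m = n + 1 ∨ n + 1 < m by omega) with rfl | hm2
        · rw [if_pos rfl, if_neg (by omega), ← ha, sub_self, zero_add]
        · rw [if_neg (by omega), if_neg (by omega),
            Polynomial.coeff_eq_zero_of_natDegree_lt (by omega), sub_zero, add_zero]
      · rw [map_add, map_sub, hf, Polynomial.aeval_monomial, Polynomial.aeval_monomial]
        show 0 - (a : Qbar) * x ^ (n + 1) + (a : Qbar) * x * x ^ n = 0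
        ring
      · have hne : i ≠ n + 1 := by rintro rfl; exact hi han
        simp only [Polynomial.coeff_add, Polynomial.coeff_sub, Polynomial.coeff_monomial,
          if_neg (Ne.symm hne), sub_zero]
        split
        · intro hmem
          refine hi ?_
          have h2 : (c : Qbar) ∈ A.nonunits := mul_mem_nonunits_of_mem han hx
          simpa using sub_mem hmem h2
        · simpa using hi
    · refine ⟨(a : Qbar) * x, a, hax, a.2, han, ?_⟩
      rw [mul_div_cancel_left₀]
      exact fun h => han (h ▸ A.nonunits.zero_mem)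

theorem natCast_mem_nonunits_iff (hq : q.Prime) (hA : A.LiesOverPrime q) (n : ℕ) :
    (n : Qbar) ∈ A.nonunits ↔ q ∣ n := by
  constructor
  · intro hn
    by_contra h
    have hco : IsCoprime (q : ℤ) (n : ℤ) := Int.isCoprime_iff_gcd_eq_one.mpr (by
      simpa [Int.gcd_natCast_natCast] using (hq.coprime_iff_not_dvd.mpr h).gcd_eq_one)
    obtain ⟨u, v, huv⟩ := hco
    have h1 := congrArg (fun z : ℤ => (z : Qbar)) huv
    simp only [Int.cast_add, Int.cast_mul, Int.cast_natCast, Int.cast_one] at h1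
    refine one_not_mem_nonunits (A := A) ?_
    rw [← h1]
    exact add_mem (by rw [mul_comm]; exact mul_mem_nonunits_of_mem hA (intCast_mem A u))
      (by rw [mul_comm]; exact mul_mem_nonunits_of_mem hn (intCast_mem A v))
  · rintro ⟨m, rfl⟩
    rw [Nat.cast_mul]
    exact mul_mem_nonunits_of_mem hA (natCast_mem A m)

theorem intCast_mem_nonunits_iff (hq : q.Prime) (hA : A.LiesOverPrime q) (n : ℤ) :
    (n : Qbar) ∈ A.nonunits ↔ (q : ℤ) ∣ n := by
  rw [Int.natCast_dvd, ← natCast_mem_nonunits_iff hq hA]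
  rcases Int.natAbs_eq n with h | h
  · conv_lhs => rw [h, Int.cast_natCast]
  · conv_lhs => rw [h, Int.cast_neg, Int.cast_natCast]
    exact neg_mem_iff

theorem liesOverPrime_unique {r : ℕ} (hq : q.Prime) (hr : r.Prime) (hA : A.LiesOverPrime q)
    (hA' : A.LiesOverPrime r) : q = r :=
  ((Nat.prime_dvd_prime_iff_eq hq hr).mp ((natCast_mem_nonunits_iff hq hA r).mp hA'))

/-- A place exists above every prime. -/
theorem exists_liesOverPrime (hq : q.Prime) :
    ∃ A : ValuationSubring Qbar, A.LiesOverPrime q := by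
  let R : Subring Qbar := (Int.castRingHom Qbar).range
  let I : Ideal R := Ideal.span {⟨(q : Qbar), ⟨q, by simp⟩⟩}
  have hI : I ≠ ⊤ := by
    intro h
    obtain ⟨⟨_, m, rfl⟩, hm⟩ := Ideal.mem_span_singleton'.mp (h.symm ▸ Submodule.mem_top : (1 : R) ∈ I)
    have h1 : ((m * q : ℤ) : Qbar) = ((1 : ℤ) : Qbar) := by
      simpa using congrArg (fun z : R => (z : Qbar)) hm
    have h2 : (q : ℤ) ∣ 1 := ⟨m, by rw [mul_comm]; exact (Int.cast_injective h1).symm⟩
    exact hq.not_dvd_one (by exact_mod_cast h2)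
  obtain ⟨V, hV⟩ := Ideal.image_subset_nonunits_valuationSubring I hI
  exact ⟨V, hV.2 ⟨_, Ideal.subset_span rfl, rfl⟩⟩

/-- Every proper valuation subring of `Qbar` lies over a prime. -/
theorem exists_prime_liesOverPrime (hA : A ≠ ⊤) : ∃ q : ℕ, q.Prime ∧ A.LiesOverPrime q := by
  classical
  by_cases h : ∃ n : ℕ, 0 < n ∧ (n : Qbar) ∈ A.nonunits
  · obtain ⟨hn0, hn⟩ := Nat.find_spec h
    refine ⟨Nat.find h, ?_, hn⟩
    by_contra hp
    rcases Nat.eq_or_lt_of_le hn0 with h1 | h1
    · exact one_not_mem_nonunits (A := A) (by simpa [← h1] using hn)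
    obtain ⟨d, hd, hd1, hd2⟩ := Nat.exists_dvd_of_not_prime2 h1 hp
    obtain ⟨e, he⟩ := hd
    have he0 : 0 < e := Nat.pos_of_ne_zero (by rintro rfl; omega)
    have helt : e < Nat.find h := by rw [he]; exact lt_mul_left he0 hd1
    rw [he, Nat.cast_mul] at hn
    exact mul_not_mem_nonunits (fun hh => Nat.find_min h hd2 ⟨by omega, hh⟩)
      (fun hh => Nat.find_min h helt ⟨he0, hh⟩) hn
  · refine absurd (top_le_iff.mp fun x _ => ?_) hA
    push Not at h
    have hrat : ∀ r : ℚ, (r : Qbar) ∈ A := fun r => by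
      rw [Rat.cast_def, div_eq_mul_inv]
      exact mul_mem (intCast_mem A _) (inv_mem_of_not_mem_nonunits (h _ r.den_pos))
    have hx : IsIntegral A x := by
      obtain ⟨f, hf, hfx⟩ := (Algebra.IsIntegral.isIntegral (R := ℚ) x)
      refine ⟨f.map ((algebraMap ℚ Qbar).codRestrict A.toSubring fun r => by simpa using hrat r),
        hf.map _, ?_⟩
      rw [Polynomial.eval₂_map]
      exact hfx
    obtain ⟨y, hy⟩ := IsIntegrallyClosed.isIntegral_iff.mp hx
    exact hy ▸ y.2

/-- Every element of a place is a fraction of algebraic integers with unit denominator. -/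
theorem exists_integral_div (A : ValuationSubring Qbar) {x : Qbar} (hx : x ∈ A) :
    ∃ a b : Qbar, IsIntegral ℤ a ∧ IsIntegral ℤ b ∧ b ∉ A.nonunits ∧ x = a / b := by
  have halg : IsAlgebraic ℤ x :=
    (IsFractionRing.isAlgebraic_iff ℤ ℚ Qbar).mpr (qbar_isAlgebraic.isAlgebraic x)
  obtain ⟨p, hp0, hpx⟩ := halg
  have hprim : p.primPart.IsPrimitive := p.isPrimitive_primPart
  have hpx' : Polynomial.aeval x p.primPart = 0 := Polynomial.aeval_primPart_eq_zero hp0 hpx
  let g := p.primPart.map (algebraMap ℤ (integralClosure ℤ Qbar))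
  refine exists_integral_div_aux A hx g.natDegree g le_rfl ?_ ?_
  · rw [Polynomial.aeval_map_algebraMap]; exact hpx'
  · by_contra h
    push Not at h
    have hcoe : ∀ i, ((p.primPart.coeff i : ℤ) : Qbar) ∈ A.nonunits := fun i => by
      simpa [g, Polynomial.coeff_map] using h i
    let I : Ideal ℤ :=
      { carrier := {n | (n : Qbar) ∈ A.nonunits}
        add_mem' := fun {a b} ha hb => by simpa using add_mem (s := A.nonunits) ha hb
        zero_mem' := by simp
        smul_mem' := fun c n hn => by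
          simpa [mul_comm] using mul_mem_nonunits_of_mem (A := A) hn (intCast_mem A c) }
    obtain ⟨d, hd⟩ := IsPrincipalIdealRing.principal I
    have hdvd : Polynomial.C d ∣ p.primPart := (Polynomial.C_dvd_iff_dvd_coeff _ _).mpr fun i => by
      rw [← Ideal.mem_span_singleton, ← Ideal.submodule_span_eq, ← hd]
      exact hcoe i
    have h1 : (1 : ℤ) ∈ I := by
      rw [hd, Ideal.submodule_span_eq, Ideal.span_singleton_eq_top.mpr (hprim d hdvd)]
      trivial
    exact one_not_mem_nonunits (A := A) (by simpa [I] using h1)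

/-- A place is determined by its nonunit algebraic integers. -/
theorem eq_of_integral_nonunits_eq
    (h : ∀ x : Qbar, IsIntegral ℤ x → (x ∈ A.nonunits ↔ x ∈ B.nonunits)) : A = B := by
  have key : ∀ A B : ValuationSubring Qbar,
      (∀ x : Qbar, IsIntegral ℤ x → (x ∈ A.nonunits ↔ x ∈ B.nonunits)) → A ≤ B := by
    intro A B h x hx
    obtain ⟨a, b, ha, hb, hbn, rfl⟩ := exists_integral_div A hx
    rw [div_eq_mul_inv]
    exact mul_mem (mem_of_isIntegral ha) (inv_mem_of_not_mem_nonunits (by rwa [← h b hb]))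
  exact le_antisymm (key A B h) (key B A fun x hx => (h x hx).symm)

/-- The prime of all algebraic integers cut out by a place. -/
def intIdeal (A : ValuationSubring Qbar) : Ideal (integralClosure ℤ Qbar) where
  carrier := {x | (x : Qbar) ∈ A.nonunits}
  add_mem' {a b} ha hb := by simpa using add_mem (s := A.nonunits) ha hb
  zero_mem' := by simp
  smul_mem' c x hx := by
    simpa [mul_comm] using mul_mem_nonunits_of_mem hx (mem_of_isIntegral c.2 : (c : Qbar) ∈ A)

theorem intIdeal_isPrime (A : ValuationSubring Qbar) : (intIdeal A).IsPrime := by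
  refine ⟨fun h => one_not_mem_nonunits (A := A) ?_, fun {x y} h => ?_⟩
  · exact (h.symm ▸ Submodule.mem_top : (1 : integralClosure ℤ Qbar) ∈ intIdeal A)
  · by_contra hc
    push Not at hc
    exact mul_not_mem_nonunits hc.1 hc.2 h

theorem intIdeal_under (hq : q.Prime) (hA : A.LiesOverPrime q) :
    (intIdeal A).under ℤ = Ideal.span {(q : ℤ)} := by
  ext n
  rw [Ideal.mem_span_singleton, ← intCast_mem_nonunits_iff hq hA]
  show ((algebraMap ℤ (integralClosure ℤ Qbar) n : integralClosure ℤ Qbar) : Qbar) ∈ A.nonunits ↔ _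
  simp

section Profinite

local instance : TopologicalSpace (integralClosure ℤ Qbar) := ⊥

local instance : DiscreteTopology (integralClosure ℤ Qbar) := ⟨rfl⟩

local instance : ContinuousSMul Γ (integralClosure ℤ Qbar) :=
  continuousSMul_iff_stabilizer_isOpen.mpr fun x => by
    have h : MulAction.stabilizer Γ x = MulAction.stabilizer Γ (x : Qbar) := by
      ext g
      exact (Subtype.ext_iff : (g • x = x) ↔ _)
    rw [h]
    exact stabilizer_isOpen_of_isIntegral (x : Qbar)

local instance : Algebra.IsInvariant ℤ (integralClosure ℤ Qbar) Γ :=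
  ⟨fun x hx => by
    have h : (x : Qbar) ∈ (⊥ : IntermediateField ℚ Qbar) :=
      (InfiniteGalois.mem_bot_iff_fixed (k := ℚ) (x : Qbar)).mpr fun g =>
        congrArg (fun z : integralClosure ℤ Qbar => (z : Qbar)) (hx g)
    obtain ⟨r, hr⟩ := IntermediateField.mem_bot.mp h
    have hr' : IsIntegral ℤ r :=
      (isIntegral_algHom_iff ((Algebra.ofId ℚ Qbar).restrictScalars ℤ)
        (algebraMap ℚ Qbar).injective).mp
        (show IsIntegral ℤ (algebraMap ℚ Qbar r) by rw [hr]; exact x.2)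
    obtain ⟨n, hn⟩ := IsIntegrallyClosed.isIntegral_iff.mp hr'
    refine ⟨n, Subtype.ext ?_⟩
    rw [← hr, ← hn]
    simp⟩

/-- The places over `q` are conjugate. -/
theorem exists_smul_eq (hq : q.Prime) (hA : A.LiesOverPrime q) (hB : B.LiesOverPrime q) :
    ∃ g : Γ, g • A = B := by
  haveI := intIdeal_isPrime A
  haveI := intIdeal_isPrime B
  obtain ⟨g, hg⟩ := Algebra.IsInvariant.exists_smul_of_under_eq_of_profinite (A := ℤ) (G := Γ)
    (intIdeal A) (intIdeal B) ((intIdeal_under hq hA).trans (intIdeal_under hq hB).symm)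
  refine ⟨g, eq_of_integral_nonunits_eq fun x hx => ?_⟩
  have hy : IsIntegral ℤ (g⁻¹ x) := hx.map ((g⁻¹ : Γ).toAlgHom.restrictScalars ℤ)
  have h1 : (⟨x, hx⟩ : integralClosure ℤ Qbar) ∈ intIdeal B ↔
      (⟨g⁻¹ x, hy⟩ : integralClosure ℤ Qbar) ∈ intIdeal A := by
    rw [hg, Ideal.mem_pointwise_smul_iff_inv_smul_mem]
    exact Iff.rfl
  refine Iff.trans ?_ h1.symm
  have hxe : g (g⁻¹ x) = x := g.apply_symm_apply x
  conv_lhs => rw [← hxe, smul_valuationSubring_nonunits]
  exact Iff.rfl


theorem charP_residueField (hq : q.Prime) (hA : A.LiesOverPrime q) :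
    CharP (ResidueField A) q := by
  refine ⟨fun n => ?_⟩
  rw [← natCast_mem_nonunits_iff hq hA, ← map_natCast (residue A), residue_eq_zero_iff_mem_nonunits]
  simp

theorem isAlgClosed_residueField (A : ValuationSubring Qbar) :
    IsAlgClosed (ResidueField A) := by
  refine IsAlgClosed.of_exists_root _ fun p hp hirr => ?_
  have hl : p ∈ Polynomial.lifts (residue A) :=
    Polynomial.map_surjective _ IsLocalRing.residue_surjective p
  obtain ⟨P, hP, hdeg, hPm⟩ := Polynomial.lifts_and_degree_eq_and_monic hl hp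
  have hne : (P.map A.subtype).degree ≠ 0 := by
    rw [hPm.degree_map, hdeg]; exact (Polynomial.degree_pos_of_irreducible hirr).ne'
  obtain ⟨x, hx⟩ := IsAlgClosed.exists_root (P.map A.subtype) hne
  rw [Polynomial.IsRoot, Polynomial.eval_map] at hx
  obtain ⟨y, hy⟩ := (IsIntegrallyClosed.isIntegral_iff (R := A) (K := Qbar) (x := x)).mp
    ⟨P, hPm, hx⟩
  refine ⟨residue A y, ?_⟩
  rw [← hP, Polynomial.eval_map, Polynomial.eval₂_at_apply]
  have hx0 : P.eval y = 0 := by
    apply Subtype.coe_injective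
    have := Polynomial.eval₂_at_apply (p := P) A.subtype y
    rw [show A.subtype y = x from hy, hx] at this
    simpa using this.symm
  rw [hx0, map_zero]

/-- Every residue is killed by some `x ↦ x ^ (q ^ k) - x`. -/
theorem exists_pow_card_eq_self (hq : q.Prime) (hA : A.LiesOverPrime q)
    (x : ResidueField A) : ∃ k : ℕ, 0 < k ∧ x ^ q ^ k = x := by
  haveI := Fact.mk hq
  haveI := charP_residueField hq hA
  let _ : Algebra (ZMod q) (ResidueField A) := ZMod.algebra _ q
  have hint : ∀ a : A, IsIntegral ℤ (a : Qbar) → IsIntegral (ZMod q) (residue A a) := by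
    intro a ha
    obtain ⟨f, hf, hfa⟩ := ha
    refine ⟨f.map (Int.castRingHom (ZMod q)), hf.map _, ?_⟩
    have h0 : f.eval₂ (Int.castRingHom A) a = 0 := by
      apply Subtype.coe_injective
      show A.subtype (f.eval₂ (Int.castRingHom A) a) = A.subtype 0
      rw [Polynomial.hom_eval₂, map_zero, RingHom.ext_int (A.subtype.comp _) (algebraMap ℤ Qbar)]
      exact hfa
    rw [Polynomial.eval₂_map, RingHom.ext_int ((algebraMap (ZMod q) (ResidueField A)).comp _)
      ((residue A).comp (Int.castRingHom A)), ← Polynomial.hom_eval₂, h0, map_zero]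
  obtain ⟨⟨x, hx⟩, rfl⟩ := IsLocalRing.residue_surjective x
  obtain ⟨a, b, ha, hb, hbn, rfl⟩ := exists_integral_div A hx
  have hres : residue A ⟨a / b, hx⟩ =
      residue A ⟨a, mem_of_isIntegral ha⟩ / residue A ⟨b, mem_of_isIntegral hb⟩ := by
    rw [eq_div_iff (by rwa [Ne, residue_eq_zero_iff_mem_nonunits]), ← map_mul]
    congr 1
    ext
    exact div_mul_cancel₀ _ fun h => hbn (h.symm ▸ A.nonunits.zero_mem)
  have hi : IsIntegral (ZMod q) (residue A ⟨a / b, hx⟩) := by
    rw [hres, div_eq_mul_inv]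
    exact (hint _ ha).mul (hint _ hb).inv
  set r := residue A ⟨a / b, hx⟩
  let k := IntermediateField.adjoin (ZMod q) {r}
  haveI : FiniteDimensional (ZMod q) k := IntermediateField.adjoin.finiteDimensional hi
  haveI : Finite k := Module.finite_of_finite (ZMod q)
  let _ := Fintype.ofFinite k
  refine ⟨Module.finrank (ZMod q) k, Module.finrank_pos, ?_⟩
  have h := FiniteField.pow_card (⟨r, IntermediateField.mem_adjoin_simple_self _ _⟩ : k)
  rw [Fintype.card_eq_nat_card, Module.natCard_eq_pow_finrank (K := ZMod q), Nat.card_zmod] at h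
  exact congrArg Subtype.val h

theorem isAlgebraic_residueField (hq : q.Prime) (hA : A.LiesOverPrime q)
    [Algebra (ZMod q) (ResidueField A)] : Algebra.IsAlgebraic (ZMod q) (ResidueField A) := by
  refine ⟨fun x => ?_⟩
  obtain ⟨k, hk, hx⟩ := exists_pow_card_eq_self hq hA x
  haveI := Fact.mk hq
  refine ⟨Polynomial.X ^ q ^ k - Polynomial.X,
    FiniteField.X_pow_card_pow_sub_X_ne_zero _ hk.ne' hq.one_lt, ?_⟩
  simp [hx]

theorem mem_inertiaSubgroupIn_iff_integral :
    σ ∈ A.inertiaSubgroupIn ℚ ↔ ∀ x : Qbar, IsIntegral ℤ x → σ x - x ∈ A.nonunits := by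
  constructor
  · intro h x hx
    exact (mem_inertiaSubgroupIn_iff.mp h).2 x (mem_of_isIntegral hx)
  · intro h
    have hstab : σ • A = A := eq_of_integral_nonunits_eq fun x hx => by
      have hy : IsIntegral ℤ (σ⁻¹ x) :=
        hx.map ((σ⁻¹ : Γ).toAlgHom.restrictScalars ℤ)
      have hd := h _ hy
      have hxe : σ (σ⁻¹ x) = x := σ.apply_symm_apply x
      rw [hxe] at hd
      conv_lhs => rw [← hxe, smul_valuationSubring_nonunits]
      exact ⟨fun h' => by simpa using add_mem hd h', fun h' => by simpa using sub_mem h' hd⟩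
    refine mem_inertiaSubgroupIn_iff.mpr ⟨hstab, fun x hx => ?_⟩
    obtain ⟨a, b, ha, hb, hbn, rfl⟩ := exists_integral_div A hx
    rw [map_div₀]
    exact div_sub_div_mem_nonunits (apply_mem_of_mem_decompositionSubgroup hstab (mem_of_isIntegral ha))
      (apply_mem_of_mem_decompositionSubgroup hstab (mem_of_isIntegral hb))
      (by rwa [apply_mem_nonunits_iff hstab]) hbn (h a ha) (h b hb)

theorem isFrobeniusAt_iff_integral (hq : 0 < q) :
    A.IsFrobeniusAt σ q ↔ ∀ x : Qbar, IsIntegral ℤ x → σ x - x ^ q ∈ A.nonunits := by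
  constructor
  · intro h x hx
    exact (isFrobeniusAt_iff.mp h).2 x (mem_of_isIntegral hx)
  · intro h
    have hpow : ∀ x : Qbar, x ^ q ∈ A.nonunits ↔ x ∈ A.nonunits := fun x => by
      simp only [ValuationSubring.mem_nonunits_iff, map_pow]
      exact pow_lt_one_iff_of_nonneg zero_le hq.ne'
    have hstab : σ • A = A := eq_of_integral_nonunits_eq fun x hx => by
      have hy : IsIntegral ℤ (σ⁻¹ x) :=
        hx.map ((σ⁻¹ : Γ).toAlgHom.restrictScalars ℤ)
      have hd := h _ hy
      have hxe : σ (σ⁻¹ x) = x := σ.apply_symm_apply x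
      rw [hxe] at hd
      conv_lhs => rw [← hxe, smul_valuationSubring_nonunits, ← hpow]
      exact ⟨fun h' => by simpa using add_mem hd h', fun h' => by simpa using sub_mem h' hd⟩
    refine isFrobeniusAt_iff.mpr ⟨hstab, fun x hx => ?_⟩
    obtain ⟨a, b, ha, hb, hbn, rfl⟩ := exists_integral_div A hx
    rw [map_div₀, div_pow]
    exact div_sub_div_mem_nonunits (apply_mem_of_mem_decompositionSubgroup hstab (mem_of_isIntegral ha))
      (apply_mem_of_mem_decompositionSubgroup hstab (mem_of_isIntegral hb))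
      (by rwa [apply_mem_nonunits_iff hstab]) (by rwa [hpow]) (h a ha) (h b hb)

/-- Frobenius elements exist at every place over a prime. -/
theorem exists_isFrobeniusAt (hq : q.Prime) (hA : A.LiesOverPrime q) :
    ∃ σ : Γ, A.IsFrobeniusAt σ q := by
  haveI := intIdeal_isPrime A
  haveI := Fact.mk hq
  haveI : (intIdeal A).LiesOver (Ideal.span {(q : ℤ)}) := ⟨(intIdeal_under hq hA).symm⟩
  haveI hchar : CharP (integralClosure ℤ Qbar ⧸ intIdeal A) q := ⟨fun n => by
    rw [← map_natCast (Ideal.Quotient.mk (intIdeal A)), Ideal.Quotient.eq_zero_iff_mem,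
      ← natCast_mem_nonunits_iff hq hA]
    show ((n : integralClosure ℤ Qbar) : Qbar) ∈ A.nonunits ↔ _
    simp⟩
  have hbij : Function.Bijective (frobenius (integralClosure ℤ Qbar ⧸ intIdeal A) q) := by
    refine ⟨frobenius_inj _ q, fun y => ?_⟩
    obtain ⟨⟨y, hy⟩, rfl⟩ := Ideal.Quotient.mk_surjective y
    obtain ⟨z, hz⟩ := IsAlgClosed.exists_pow_nat_eq y hq.pos
    refine ⟨Ideal.Quotient.mk _ ⟨z, IsIntegral.of_pow hq.pos (hz ▸ hy)⟩, ?_⟩
    rw [frobenius_def, ← map_pow]
    congr 1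
    exact Subtype.ext hz
  let l : (integralClosure ℤ Qbar ⧸ intIdeal A) ≃ₐ[ℤ ⧸ Ideal.span {(q : ℤ)}]
      (integralClosure ℤ Qbar ⧸ intIdeal A) :=
    { RingEquiv.ofBijective (frobenius _ q) hbij with
      commutes' := fun r => by
        obtain ⟨n, rfl⟩ := Ideal.Quotient.mk_surjective r
        show frobenius _ q _ = _
        rw [eq_intCast (Ideal.Quotient.mk (Ideal.span {(q : ℤ)})) n, map_intCast, map_intCast] }
  obtain ⟨σ, hσ⟩ := Ideal.Quotient.stabilizerHom_surjective_of_profinite (G := Γ)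
    (Ideal.span {(q : ℤ)}) (intIdeal A) l
  refine ⟨(σ : Γ), (isFrobeniusAt_iff_integral hq.pos).mpr fun x hx => ?_⟩
  have h1 : Ideal.Quotient.mk (intIdeal A) ((σ : Γ) • ⟨x, hx⟩) =
      Ideal.Quotient.mk (intIdeal A) (⟨x, hx⟩ ^ q) := by
    have := DFunLike.congr_fun hσ (Ideal.Quotient.mk (intIdeal A) ⟨x, hx⟩)
    rw [map_pow]
    exact this
  exact Ideal.Quotient.eq.mp h1

end Profinite

/-- Reduction is injective on roots of unity of order prime to `q`. -/
theorem eq_of_sub_mem_nonunits_of_pow_eq_one (hq : q.Prime) (hA : A.LiesOverPrime q)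
    {ζ ξ : Qbar} {n : ℕ} (hn : ¬ q ∣ n) (hζ : ζ ^ n = 1) (hξ : ξ ^ n = 1)
    (h : ζ - ξ ∈ A.nonunits) : ζ = ξ := by
  have hn0 : n ≠ 0 := by rintro rfl; exact hn (dvd_zero q)
  have hξ0 : ξ ≠ 0 := by rintro rfl; simp [hn0] at hξ
  by_contra hne
  set η := ζ / ξ with hη
  have hη1 : η ≠ 1 := fun h' => hne ((div_eq_one_iff_eq hξ0).mp h')
  have hηn : η ^ n = 1 := by rw [hη, div_pow, hζ, hξ, div_one]
  have hint : ∀ z : Qbar, z ^ n = 1 → z ∈ A := fun z hz =>
    mem_of_isIntegral (IsIntegral.of_pow (Nat.pos_of_ne_zero hn0) (hz ▸ isIntegral_one))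
  have hηA : η ∈ A := hint _ hηn
  have hd : η - 1 ∈ A.nonunits := by
    rw [hη, ← div_self hξ0, ← sub_div, div_eq_mul_inv]
    exact mul_mem_nonunits_of_mem h (hint _ (by rw [inv_pow, hξ, inv_one]))
  have hsum : ∑ i ∈ Finset.range n, η ^ i = 0 := by
    rw [geom_sum_eq hη1, hηn, sub_self, zero_div]
  have hmem : ∀ i : ℕ, η ^ i - 1 ∈ A.nonunits := fun i => by
    rw [← geom_sum_mul, mul_comm]
    exact mul_mem_nonunits_of_mem hd (sum_mem fun j _ => pow_mem hηA j)
  have hnm := sum_mem (t := Finset.range n) fun i _ => hmem i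
  rw [Finset.sum_sub_distrib, hsum] at hnm
  simp only [Finset.sum_const, Finset.card_range, nsmul_eq_mul, mul_one, zero_sub, neg_mem_iff] at hnm
  exact hn ((natCast_mem_nonunits_iff hq hA n).mp hnm)

/-- Roots of unity of `q`-power order reduce to `1`. -/
theorem sub_one_mem_nonunits_of_pow_prime_pow_eq_one (hq : q.Prime) (hA : A.LiesOverPrime q)
    {ζ : Qbar} {k : ℕ} (hζ : ζ ^ q ^ k = 1) : ζ - 1 ∈ A.nonunits := by
  haveI := Fact.mk hq
  haveI := charP_residueField hq hA
  have hmem : ζ ∈ A :=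
    mem_of_isIntegral (IsIntegral.of_pow (pow_pos hq.pos k) (hζ ▸ isIntegral_one))
  have h : (residue A ⟨ζ, hmem⟩ - 1) ^ q ^ k = 0 := by
    rw [sub_pow_char_pow, one_pow, ← map_pow, sub_eq_zero, ← map_one (residue A)]
    congr 1
    ext; simpa using hζ
  have h2 := (pow_eq_zero_iff (pow_ne_zero k hq.ne_zero)).mp h
  rw [sub_eq_zero, ← map_one (residue A), residue_eq_iff_sub_mem_nonunits] at h2
  simpa using h2

end Places

end FLTA.Galois
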