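import Fermat.Agent.Galois.PlacesFinite
import Fermat.Prelude.Def_ExtCitation_AdmissibleExtension

/-!
# Cyclotomic characters at Frobenius and inertia
-/

set_option autoImplicit false

open scoped Pointwise
open ValuationSubring

noncomputable section

namespace FLTA.Galois

local notation "Qbar" => AlgebraicClosure ℚ
local notation "Γ" => AlgebraicClosure ℚ ≃ₐ[ℚ] AlgebraicClosure ℚ

variable {A : ValuationSubring Qbar} {σ : Γ} {q : ℕ}

theorem frobenius_apply_rootOfUnity (hq : q.Prime) (hA : A.LiesOverPrime q)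
    (hσ : A.IsFrobeniusAt σ q) {ζ : Qbar} {n : ℕ} (hn : ¬ q ∣ n) (hζ : ζ ^ n = 1) :
    σ ζ = ζ ^ q := by
  have hn0 : n ≠ 0 := by rintro rfl; exact hn (dvd_zero q)
  have hint : IsIntegral ℤ ζ := IsIntegral.of_pow (Nat.pos_of_ne_zero hn0) (hζ ▸ isIntegral_one)
  refine eq_of_sub_mem_nonunits_of_pow_eq_one hq hA hn (by rw [← map_pow, hζ, map_one]) ?_
    ((isFrobeniusAt_iff.mp hσ).2 ζ (mem_of_isIntegral hint))
  rw [← pow_mul, mul_comm, pow_mul, hζ, one_pow]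

theorem inertia_apply_rootOfUnity (hq : q.Prime) (hA : A.LiesOverPrime q)
    (hσ : σ ∈ A.inertiaSubgroupIn ℚ) {ζ : Qbar} {n : ℕ} (hn : ¬ q ∣ n) (hζ : ζ ^ n = 1) :
    σ ζ = ζ := by
  have hn0 : n ≠ 0 := by rintro rfl; exact hn (dvd_zero q)
  have hint : IsIntegral ℤ ζ := IsIntegral.of_pow (Nat.pos_of_ne_zero hn0) (hζ ▸ isIntegral_one)
  exact eq_of_sub_mem_nonunits_of_pow_eq_one hq hA hn (by rw [← map_pow, hζ, map_one]) hζ
    ((mem_inertiaSubgroupIn_iff.mp hσ).2 ζ (mem_of_isIntegral hint))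

theorem modularCyclotomicCharacter_frobenius (hq : q.Prime) (hA : A.LiesOverPrime q)
    (hσ : A.IsFrobeniusAt σ q) {n : ℕ} [NeZero n] (hn : ¬ q ∣ n)
    (hcard : Nat.card (rootsOfUnity n Qbar) = n) :
    ((modularCyclotomicCharacter Qbar hcard (σ : Qbar ≃+* Qbar) : (ZMod n)ˣ) : ZMod n) = q := by
  refine (modularCyclotomicCharacter.unique Qbar hcard (σ : Qbar ≃+* Qbar) fun t ht => ?_).symm
  have h1 : (t : Qbar) ^ n = 1 := by rw [← Units.val_pow_eq_pow_val, ht, Units.val_one]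
  rw [ZMod.val_natCast, ← pow_eq_pow_mod q h1]
  exact frobenius_apply_rootOfUnity hq hA hσ hn h1

theorem modularCyclotomicCharacter_inertia (hq : q.Prime) (hA : A.LiesOverPrime q)
    (hσ : σ ∈ A.inertiaSubgroupIn ℚ) {n : ℕ} [NeZero n] (hn : ¬ q ∣ n)
    (hcard : Nat.card (rootsOfUnity n Qbar) = n) :
    modularCyclotomicCharacter Qbar hcard (σ : Qbar ≃+* Qbar) = 1 := by
  refine Units.ext (modularCyclotomicCharacter.unique Qbar hcard (σ : Qbar ≃+* Qbar) fun t ht => ?_).symm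
  have h1 : (t : Qbar) ^ n = 1 := by rw [← Units.val_pow_eq_pow_val, ht, Units.val_one]
  rw [Units.val_one, ZMod.val_one_eq_one_mod, ← pow_eq_pow_mod 1 h1, pow_one]
  exact inertia_apply_rootOfUnity hq hA hσ hn h1

theorem cycloExp_frobenius (p : ℕ) [Fact p.Prime] (hq : q.Prime) (hqp : q ≠ p)
    (hA : A.LiesOverPrime q) (hσ : A.IsFrobeniusAt σ q) :
    (ExtCitation.cycloExp p σ : ZMod p) = q := by
  haveI : NeZero p := ⟨(Fact.out : p.Prime).ne_zero⟩
  rw [ExtCitation.cycloExp, ZMod.natCast_zmod_val]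
  exact modularCyclotomicCharacter_frobenius hq hA hσ
    (fun h => hqp ((Nat.prime_dvd_prime_iff_eq hq Fact.out).mp h)) _

theorem cycloExp_inertia (p : ℕ) [Fact p.Prime] (hq : q.Prime) (hqp : q ≠ p)
    (hA : A.LiesOverPrime q) (hσ : σ ∈ A.inertiaSubgroupIn ℚ) :
    (ExtCitation.cycloExp p σ : ZMod p) = 1 := by
  haveI : NeZero p := ⟨(Fact.out : p.Prime).ne_zero⟩
  rw [ExtCitation.cycloExp, ZMod.natCast_zmod_val,
    modularCyclotomicCharacter_inertia hq hA hσ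
      (fun h => hqp ((Nat.prime_dvd_prime_iff_eq hq Fact.out).mp h)) _, Units.val_one]

theorem cyclotomicCharacter_frobenius (p : ℕ) [Fact p.Prime] (hq : q.Prime) (hqp : q ≠ p)
    (hA : A.LiesOverPrime q) (hσ : A.IsFrobeniusAt σ q) :
    ((cyclotomicCharacter Qbar p (σ : Qbar ≃+* Qbar) : ℤ_[p]ˣ) : ℤ_[p]) = q := by
  haveI : ∀ i, HasEnoughRootsOfUnity Qbar (p ^ i) := fun i =>
    AlgebraicClosure.hasEnoughRootsOfUnity_pow ℚ p i
  refine PadicInt.ext_of_toZModPow.mp fun n => ?_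
  rw [cyclotomicCharacter.toZModPow, map_natCast]
  exact modularCyclotomicCharacter_frobenius hq hA hσ
    (fun h => hqp ((Nat.prime_dvd_prime_iff_eq hq Fact.out).mp (hq.dvd_of_dvd_pow h))) _

theorem cyclotomicCharacter_inertia (p : ℕ) [Fact p.Prime] (hq : q.Prime) (hqp : q ≠ p)
    (hA : A.LiesOverPrime q) (hσ : σ ∈ A.inertiaSubgroupIn ℚ) :
    cyclotomicCharacter Qbar p (σ : Qbar ≃+* Qbar) = 1 := by
  haveI : ∀ i, HasEnoughRootsOfUnity Qbar (p ^ i) := fun i =>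
    AlgebraicClosure.hasEnoughRootsOfUnity_pow ℚ p i
  refine Units.ext (PadicInt.ext_of_toZModPow.mp fun n => ?_)
  rw [cyclotomicCharacter.toZModPow, modularCyclotomicCharacter_inertia hq hA hσ
    (fun h => hqp ((Nat.prime_dvd_prime_iff_eq hq Fact.out).mp (hq.dvd_of_dvd_pow h))) _,
    Units.val_one, Units.val_one, map_one]

/-- Inertia at `p` realises every automorphism of the `p`-power roots of unity. -/
theorem exists_inertia_apply_eq_pow (p : ℕ) [Fact p.Prime] (hA : A.LiesOverPrime p) (k : ℕ)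
    (a : ℕ) (ha : ¬ p ∣ a) :
    ∃ ι ∈ A.inertiaSubgroupIn ℚ, ∀ ζ : Qbar, ζ ^ p ^ k = 1 → ι ζ = ζ ^ a := by
  have hp : p.Prime := Fact.out
  haveI : NeZero p := ⟨hp.ne_zero⟩
  set n := p ^ k with hn
  haveI : NeZero n := ⟨(pow_pos hp.pos k).ne'⟩
  have hcard : Nat.card (rootsOfUnity n Qbar) = n := IsAlgClosed.card_rootsOfUnity_eq Qbar n
  let χ : Γ →* (ZMod n)ˣ :=
    (modularCyclotomicCharacter Qbar hcard).comp (MulSemiringAction.toRingAut Γ Qbar)
  have hspec : ∀ (τ : Γ) (ζ : Qbar), ζ ^ n = 1 → τ ζ = ζ ^ ((χ τ : ZMod n)).val := fun τ ζ hζ =>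
    modularCyclotomicCharacter.spec Qbar hcard (MulSemiringAction.toRingAut Γ Qbar τ)
      (rootsOfUnity.mkOfPowEq ζ hζ).2
  haveI : NeZero (n : Qbar) := ⟨Nat.cast_ne_zero.mpr (NeZero.ne n)⟩
  obtain ⟨ζ₀, hζ₀⟩ : ∃ ζ : Qbar, IsPrimitiveRoot ζ n :=
    ⟨_, (HasEnoughRootsOfUnity.exists_primitiveRoot Qbar n).choose_spec⟩
  let L : IntermediateField ℚ Qbar := IntermediateField.adjoin ℚ {ζ₀}
  haveI : FiniteDimensional ℚ L :=
    IntermediateField.adjoin.finiteDimensional (qbar_isAlgebraic.isAlgebraic ζ₀).isIntegral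
  let H : Subgroup (ZMod n)ˣ := (A.inertiaSubgroupIn ℚ).map χ
  have hfin : ∀ σ : Γ, (∀ x ∈ L, σ x = x) → ((QuotientGroup.mk' H).comp χ) σ = 1 := by
    intro σ hσ
    have h1 : χ σ = 1 := Units.ext (modularCyclotomicCharacter.unique Qbar hcard _ fun t ht => by
      have h1 : (t : Qbar) ^ n = 1 := by rw [← Units.val_pow_eq_pow_val, ht, Units.val_one]
      obtain ⟨i, -, hi⟩ := hζ₀.eq_pow_of_pow_eq_one h1
      rw [Units.val_one, ZMod.val_one_eq_one_mod, ← pow_eq_pow_mod 1 h1, pow_one, ← hi]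
      show σ (ζ₀ ^ i) = ζ₀ ^ i
      exact hσ _ (pow_mem (IntermediateField.mem_adjoin_simple_self ℚ ζ₀) i)).symm
    rw [MonoidHom.comp_apply, h1, map_one]
  have hunr : ∀ q : ℕ, q.Prime → ∀ B : ValuationSubring Qbar, B.LiesOverPrime q →
      ∀ σ ∈ B.inertiaSubgroupIn ℚ, ((QuotientGroup.mk' H).comp χ) σ = 1 := by
    intro q hq B hB σ hσ
    by_cases hqp : q = p
    · subst hqp
      obtain ⟨g, rfl⟩ := exists_smul_eq hq hA hB
      rw [inertiaSubgroupIn_smul_iff] at hσ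
      rw [MonoidHom.comp_apply, QuotientGroup.mk'_apply, QuotientGroup.eq_one_iff]
      exact ⟨_, hσ, by simp [map_mul, map_inv, mul_comm, mul_assoc]⟩
    · have h1 : χ σ = 1 := modularCyclotomicCharacter_inertia hq hB hσ
        (fun h => hqp ((Nat.prime_dvd_prime_iff_eq hq hp).mp (hq.dvd_of_dvd_pow h))) hcard
      rw [MonoidHom.comp_apply, h1, map_one]
  have hcop : a.Coprime n := Nat.Coprime.pow_right k (hp.coprime_iff_not_dvd.mpr ha).symm
  obtain ⟨σ, hσ⟩ : ∃ σ : Γ, σ ζ₀ = ζ₀ ^ a :=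
    minpoly.exists_algEquiv_of_root' (qbar_isAlgebraic.isAlgebraic ζ₀) (by
      rw [← Polynomial.cyclotomic_eq_minpoly_rat hζ₀ (pow_pos hp.pos k)]
      rw [Polynomial.aeval_def, ← Polynomial.eval_map, Polynomial.map_cyclotomic]
      exact Polynomial.isRoot_cyclotomic_iff.mpr (hζ₀.pow_of_coprime a hcop))
  have h := hom_eq_one_of_unramified _ ⟨L, inferInstance, hfin⟩ hunr σ
  rw [MonoidHom.comp_apply, QuotientGroup.mk'_apply, QuotientGroup.eq_one_iff] at h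
  obtain ⟨ι, hι, he⟩ := h
  refine ⟨ι, hι, fun ζ hζ => ?_⟩
  obtain ⟨i, -, rfl⟩ := hζ₀.eq_pow_of_pow_eq_one hζ
  rw [map_pow, hspec ι ζ₀ hζ₀.pow_eq_one, he, ← hspec σ ζ₀ hζ₀.pow_eq_one, hσ, ← pow_mul,
    ← pow_mul, mul_comm]

/-- The mod `p` cyclotomic character is surjective on inertia at `p`. -/
theorem exists_inertia_cycloExp (p : ℕ) [Fact p.Prime] (hA : A.LiesOverPrime p) (u : (ZMod p)ˣ) :
    ∃ ι ∈ A.inertiaSubgroupIn ℚ, (ExtCitation.cycloExp p ι : ZMod p) = u := by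
  haveI : NeZero p := ⟨(Fact.out : p.Prime).ne_zero⟩
  have hu : ¬ p ∣ (u : ZMod p).val := fun h => u.ne_zero (by
    rw [← ZMod.natCast_zmod_val (u : ZMod p), ZMod.natCast_eq_zero_iff]; exact h)
  obtain ⟨ι, hι, h⟩ := exists_inertia_apply_eq_pow p hA 1 _ hu
  refine ⟨ι, hι, ?_⟩
  rw [ExtCitation.cycloExp, ZMod.natCast_zmod_val]
  refine (modularCyclotomicCharacter.unique Qbar _ (ι : Qbar ≃+* Qbar) fun t ht => ?_).symm
  refine h _ ?_
  rw [pow_one, ← Units.val_pow_eq_pow_val, ht, Units.val_one]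

end FLTA.Galois
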