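import Fermat.Agent.Galois.Places
import Fermat.Prelude.Def_GaloisRep_Residual

/-!
# Places and finite subextensions of `AlgebraicClosure ℚ`
-/

set_option autoImplicit false

open scoped Pointwise NumberField
open ValuationSubring

noncomputable section

namespace FLTA.Galois

local notation "Qbar" => AlgebraicClosure ℚ
local notation "Γ" => AlgebraicClosure ℚ ≃ₐ[ℚ] AlgebraicClosure ℚ

variable (A : ValuationSubring Qbar) (L : IntermediateField ℚ Qbar)

/-- The prime of `𝓞 L` cut out by the place `A`. -/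
def placeIdeal : Ideal (𝓞 L) where
  carrier := {x | ((x : L) : Qbar) ∈ A.nonunits}
  add_mem' {a b} ha hb := by
    simpa using add_mem (s := A.nonunits) ha hb
  zero_mem' := by simp
  smul_mem' c x hx := by
    have hc : ((c : L) : Qbar) ∈ A :=
      mem_of_isIntegral ((NumberField.RingOfIntegers.isIntegral_coe c).map L.val.toIntAlgHom)
    simpa [mul_comm] using mul_mem_nonunits_of_mem hx hc

variable {A L} {q : ℕ}

theorem isIntegral_coe_ringOfIntegers (x : 𝓞 L) : IsIntegral ℤ ((x : L) : Qbar) :=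
  (NumberField.RingOfIntegers.isIntegral_coe x).map L.val.toIntAlgHom

theorem mem_placeIdeal {x : 𝓞 L} : x ∈ placeIdeal A L ↔ ((x : L) : Qbar) ∈ A.nonunits := Iff.rfl

theorem placeIdeal_isPrime : (placeIdeal A L).IsPrime := by
  refine ⟨fun h => one_not_mem_nonunits (A := A) ?_, fun {x y} h => ?_⟩
  · exact (h.symm ▸ Submodule.mem_top : (1 : 𝓞 L) ∈ placeIdeal A L)
  · by_contra hc
    push Not at hc
    exact mul_not_mem_nonunits hc.1 hc.2 h

theorem natCast_mem_placeIdeal (hA : A.LiesOverPrime q) : (q : 𝓞 L) ∈ placeIdeal A L := by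
  rw [mem_placeIdeal]
  simpa [ValuationSubring.LiesOverPrime] using hA

theorem placeIdeal_liesOver (hq : q.Prime) (hA : A.LiesOverPrime q) :
    (placeIdeal A L).LiesOver (Ideal.span {(q : ℤ)}) := by
  refine ⟨?_⟩
  ext n
  rw [Ideal.mem_span_singleton, ← intCast_mem_nonunits_iff hq hA, Ideal.mem_comap, mem_placeIdeal]
  simp

theorem placeIdeal_isMaximal [FiniteDimensional ℚ L] (hq : q.Prime) (hA : A.LiesOverPrime q) :
    (placeIdeal A L).IsMaximal := by
  haveI : NumberField L := { to_finiteDimensional := inferInstance }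
  refine (placeIdeal_isPrime).isMaximal fun h => hq.ne_zero ?_
  have h1 := natCast_mem_placeIdeal (L := L) hA
  rw [h, Ideal.mem_bot] at h1
  exact_mod_cast h1

/-- Every prime of `𝓞 L` containing `q` comes from a place over `q`. -/
theorem exists_placeIdeal_eq [FiniteDimensional ℚ L] (hq : q.Prime) (P : Ideal (𝓞 L))
    [P.IsPrime] (hP : (q : 𝓞 L) ∈ P) :
    ∃ A : ValuationSubring Qbar, A.LiesOverPrime q ∧ placeIdeal A L = P := by
  haveI : NumberField L := { to_finiteDimensional := inferInstance }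
  let f : 𝓞 L →+* Qbar := (L.val : L →+* Qbar).comp (algebraMap (𝓞 L) L)
  have hf : Function.Injective f.rangeRestrict := fun a b h =>
    NumberField.RingOfIntegers.coe_injective (L.val.injective
      (congrArg (fun z : f.range => (z : Qbar)) h : f a = f b))
  have hbij : Function.Bijective f.rangeRestrict := ⟨hf, f.rangeRestrict_surjective⟩
  have hI : P.map f.rangeRestrict ≠ ⊤ := fun h => by
    have h2 := Ideal.comap_map_of_bijective _ hbij (I := P)
    rw [h, Ideal.comap_top] at h2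
    exact Ideal.IsPrime.ne_top ‹_› h2.symm
  obtain ⟨V, hV⟩ := Ideal.image_subset_nonunits_valuationSubring (P.map f.rangeRestrict) hI
  have hle : P ≤ placeIdeal V L := fun x hx =>
    mem_placeIdeal.mpr (hV.2 ⟨_, Ideal.mem_map_of_mem _ hx, rfl⟩)
  have hVq : V.LiesOverPrime q := by
    have h2 := mem_placeIdeal.mp (hle hP)
    simpa [ValuationSubring.LiesOverPrime] using h2
  refine ⟨V, hVq, ((Ideal.IsPrime.isMaximal ‹P.IsPrime› fun h => hq.ne_zero ?_).eq_of_le
    placeIdeal_isPrime.ne_top hle).symm⟩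
  rw [h, Ideal.mem_bot] at hP
  exact_mod_cast hP

section OverL

/-- `𝓞 L` inside the ring of all algebraic integers. -/
def ringOfIntegersIncl (L : IntermediateField ℚ Qbar) : 𝓞 L →+* integralClosure ℤ Qbar :=
  ((L.val : L →+* Qbar).comp (algebraMap (𝓞 L) L)).codRestrict _ isIntegral_coe_ringOfIntegers

@[instance_reducible]
def algRingOfIntegers (L : IntermediateField ℚ Qbar) :
    Algebra (𝓞 L) (integralClosure ℤ Qbar) := (ringOfIntegersIncl L).toAlgebra

attribute [local instance] algRingOfIntegers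

local instance : IsGalois L Qbar := IsGalois.tower_top_intermediateField L

local instance : TopologicalSpace (integralClosure ℤ Qbar) := ⊥

local instance : DiscreteTopology (integralClosure ℤ Qbar) := ⟨rfl⟩

local instance : ContinuousSMul (Qbar ≃ₐ[L] Qbar) (integralClosure ℤ Qbar) :=
  continuousSMul_iff_stabilizer_isOpen.mpr fun x => by
    have h : MulAction.stabilizer (Qbar ≃ₐ[L] Qbar) x =
        MulAction.stabilizer (Qbar ≃ₐ[L] Qbar) (x : Qbar) := by
      ext g
      exact (Subtype.ext_iff : (g • x = x) ↔ _)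
    rw [h]
    exact stabilizer_isOpen_of_isIntegral (x : Qbar)

local instance : SMulCommClass (Qbar ≃ₐ[L] Qbar) (𝓞 L) (integralClosure ℤ Qbar) :=
  ⟨fun g r x => by
    apply Subtype.coe_injective
    show g (((r : L) : Qbar) * x) = ((r : L) : Qbar) * g x
    rw [map_mul]
    exact congrArg (· * _) (g.commutes (r : L))⟩

local instance : Algebra.IsInvariant (𝓞 L) (integralClosure ℤ Qbar) (Qbar ≃ₐ[L] Qbar) :=
  ⟨fun x hx => by
    have h : (x : Qbar) ∈ (⊥ : IntermediateField L Qbar) :=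
      (InfiniteGalois.mem_bot_iff_fixed (k := L) (x : Qbar)).mpr fun g =>
        congrArg (fun z : integralClosure ℤ Qbar => (z : Qbar)) (hx g)
    obtain ⟨r, hr⟩ := IntermediateField.mem_bot.mp h
    have hr' : IsIntegral ℤ r :=
      (isIntegral_algHom_iff L.val.toRingHom.toIntAlgHom L.val.injective).mp
        (show IsIntegral ℤ (r : Qbar) from (show ((r : L) : Qbar) = x from hr).symm ▸ x.2)
    exact ⟨⟨r, hr'⟩, Subtype.ext hr⟩⟩

theorem intIdeal_under_eq (A : ValuationSubring Qbar) :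
    (intIdeal A).under (𝓞 L) = placeIdeal A L := rfl

/-- Two places inducing the same prime of `𝓞 L` are conjugate by an element fixing `L`. -/
theorem exists_fixing_smul_eq {A B : ValuationSubring Qbar}
    (h : placeIdeal A L = placeIdeal B L) : ∃ g ∈ L.fixingSubgroup, g • A = B := by
  haveI := intIdeal_isPrime A
  haveI := intIdeal_isPrime B
  obtain ⟨g, hg⟩ := Algebra.IsInvariant.exists_smul_of_under_eq_of_profinite (A := 𝓞 L)
    (G := Qbar ≃ₐ[L] Qbar) (intIdeal A) (intIdeal B) h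
  let g' : Γ := g.restrictScalars ℚ
  refine ⟨g', (IntermediateField.mem_fixingSubgroup_iff _ _).mpr fun x hx => g.commutes ⟨x, hx⟩,
    eq_of_integral_nonunits_eq fun x hx => ?_⟩
  have hy : IsIntegral ℤ (g'⁻¹ x) := hx.map ((g'⁻¹ : Γ).toAlgHom.restrictScalars ℤ)
  have h1 : (⟨x, hx⟩ : integralClosure ℤ Qbar) ∈ intIdeal B ↔
      (⟨g'⁻¹ x, hy⟩ : integralClosure ℤ Qbar) ∈ intIdeal A := by
    rw [hg, Ideal.mem_pointwise_smul_iff_inv_smul_mem]
    exact Iff.rfl
  refine Iff.trans ?_ h1.symm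
  have hxe : g' (g'⁻¹ x) = x := g'.apply_symm_apply x
  conv_lhs => rw [← hxe, smul_valuationSubring_nonunits]
  exact Iff.rfl

/-- A decomposition element acting trivially on the residues of `𝓞 L` has the same residue action
as a decomposition element fixing `L`. -/
theorem exists_fixing_inv_mul_mem_inertia {A : ValuationSubring Qbar} {σ : Γ}
    (hσ : σ ∈ A.decompositionSubgroup ℚ)
    (h : ∀ x : 𝓞 L, σ ((x : L) : Qbar) - ((x : L) : Qbar) ∈ A.nonunits) :
    ∃ g ∈ L.fixingSubgroup, g⁻¹ * σ ∈ A.inertiaSubgroupIn ℚ := by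
  haveI := intIdeal_isPrime A
  haveI : (intIdeal A).LiesOver (placeIdeal A L) := ⟨rfl⟩
  have hstab : intIdeal A = (intIdeal A).map
      (MulSemiringAction.toRingEquiv Γ (integralClosure ℤ Qbar) σ : _ →+* _) := by
    ext x
    show x ∈ intIdeal A ↔ x ∈ σ • intIdeal A
    rw [Ideal.mem_pointwise_smul_iff_inv_smul_mem]
    exact (apply_mem_nonunits_iff (inv_mem hσ)).symm
  let l : (integralClosure ℤ Qbar ⧸ intIdeal A) ≃ₐ[𝓞 L ⧸ placeIdeal A L]
      (integralClosure ℤ Qbar ⧸ intIdeal A) :=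
    { Ideal.quotientEquiv (intIdeal A) (intIdeal A)
        (MulSemiringAction.toRingEquiv Γ (integralClosure ℤ Qbar) σ) hstab with
      commutes' := fun r => by
        obtain ⟨x, rfl⟩ := Ideal.Quotient.mk_surjective r
        exact Ideal.Quotient.eq.mpr (h x) }
  obtain ⟨g, hg⟩ := Ideal.Quotient.stabilizerHom_surjective_of_profinite
    (G := Qbar ≃ₐ[L] Qbar) (placeIdeal A L) (intIdeal A) l
  let g' : Γ := (g : Qbar ≃ₐ[L] Qbar).restrictScalars ℚ
  have hgx : ∀ x : Qbar, IsIntegral ℤ x → g' x - σ x ∈ A.nonunits := fun x hx =>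
    Ideal.Quotient.eq.mp (DFunLike.congr_fun hg (Ideal.Quotient.mk (intIdeal A) ⟨x, hx⟩))
  refine ⟨g', (IntermediateField.mem_fixingSubgroup_iff _ _).mpr
    fun x hx => (g : Qbar ≃ₐ[L] Qbar).commutes ⟨x, hx⟩, ?_⟩
  have hg' : g' • A = A := eq_of_integral_nonunits_eq fun x hx => by
    have hy : IsIntegral ℤ (g'⁻¹ x) := hx.map ((g'⁻¹ : Γ).toAlgHom.restrictScalars ℤ)
    have hd := hgx _ hy
    have hxe : g' (g'⁻¹ x) = x := g'.apply_symm_apply x
    rw [hxe] at hd
    conv_lhs => rw [← hxe, smul_valuationSubring_nonunits, ← apply_mem_nonunits_iff hσ]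
    exact ⟨fun h' => by simpa using add_mem hd h', fun h' => by simpa using sub_mem h' hd⟩
  rw [mem_inertiaSubgroupIn_iff_integral]
  intro x hx
  have hd := neg_mem (hgx x hx)
  rw [← smul_valuationSubring_nonunits (A := A) g', hg', map_sub, AlgEquiv.mul_apply,
    show g' (g'⁻¹ (σ x)) = σ x from g'.apply_symm_apply _]
  simpa using hd

end OverL

section Normal

variable [Normal ℚ L]

local notation "res" => AlgEquiv.restrictNormalHom (F := ℚ) (K₁ := Qbar) L

theorem coe_restrict_smul (g : Γ) (x : 𝓞 L) :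
    (((res g • x : 𝓞 L) : L) : Qbar) = g ((x : L) : Qbar) :=
  AlgEquiv.restrictNormal_commutes g L (x : L)

theorem placeIdeal_smul (g : Γ) : placeIdeal (g • A) L = res g • placeIdeal A L := by
  ext x
  rw [Ideal.mem_pointwise_smul_iff_inv_smul_mem, mem_placeIdeal, mem_placeIdeal, ← map_inv,
    coe_restrict_smul]
  have h : g (g⁻¹ ((x : L) : Qbar)) = ((x : L) : Qbar) := g.apply_symm_apply _
  conv_lhs => rw [← h, smul_valuationSubring_nonunits]

theorem restrict_mem_stabilizer {σ : Γ} (hσ : σ ∈ A.decompositionSubgroup ℚ) :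
    res σ ∈ MulAction.stabilizer (L ≃ₐ[ℚ] L) (placeIdeal A L) := by
  rw [MulAction.mem_stabilizer_iff, ← placeIdeal_smul, MulAction.mem_stabilizer_iff.mp hσ]

theorem restrict_mem_inertia {σ : Γ} (hσ : σ ∈ A.inertiaSubgroupIn ℚ) :
    res σ ∈ (placeIdeal A L).inertia (L ≃ₐ[ℚ] L) := by
  intro x
  show res σ • x - x ∈ placeIdeal A L
  rw [mem_placeIdeal]
  have h := (mem_inertiaSubgroupIn_iff_integral.mp hσ) _ (isIntegral_coe_ringOfIntegers x)
  show (((res σ • x : 𝓞 L) : L) : Qbar) - ((x : L) : Qbar) ∈ A.nonunits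
  rw [coe_restrict_smul]
  exact h

omit [Normal ℚ L] in
theorem natCard_quotient_under (hq : q.Prime) (hA : A.LiesOverPrime q) :
    Nat.card (ℤ ⧸ (placeIdeal A L).under ℤ) = q := by
  rw [← (placeIdeal_liesOver hq hA (L := L)).over,
    Nat.card_congr (Int.quotientSpanNatEquivZMod q).toEquiv, Nat.card_zmod]

theorem isArithFrobAt_restrict (hq : q.Prime) (hA : A.LiesOverPrime q) {σ : Γ}
    (hσ : A.IsFrobeniusAt σ q) : IsArithFrobAt ℤ (res σ) (placeIdeal A L) := by
  intro x
  rw [MulSemiringAction.toAlgHom_apply, mem_placeIdeal]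
  have h := (isFrobeniusAt_iff.mp hσ).2 _ (mem_of_isIntegral (isIntegral_coe_ringOfIntegers x))
  rw [natCard_quotient_under hq hA]
  show (((res σ • x : 𝓞 L) : L) : Qbar) - ((x : L) : Qbar) ^ q ∈ A.nonunits
  rw [coe_restrict_smul]
  exact h

variable [FiniteDimensional ℚ L]

omit [FiniteDimensional ℚ L] in
theorem restrict_eq_one_iff (g : Γ) : res g = 1 ↔ g ∈ L.fixingSubgroup := by
  rw [IntermediateField.mem_fixingSubgroup_iff]
  refine ⟨fun h x hx => ?_, fun h => AlgEquiv.ext fun x => Subtype.coe_injective ?_⟩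
  · have h1 : ((res g ⟨x, hx⟩ : L) : Qbar) = g x := AlgEquiv.restrictNormal_commutes g L ⟨x, hx⟩
    rw [h] at h1
    exact h1.symm
  · exact (AlgEquiv.restrictNormal_commutes g L x).trans (h _ x.2)

omit [FiniteDimensional ℚ L] in
theorem restrict_ker : (res).ker = L.fixingSubgroup :=
  Subgroup.ext fun g => MonoidHom.mem_ker.trans (restrict_eq_one_iff g)

/-- Decomposition groups surject onto decomposition groups at finite level. -/
theorem exists_decomposition_restrict_eq (hq : q.Prime) (hA : A.LiesOverPrime q)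
    {t : L ≃ₐ[ℚ] L} (ht : t • placeIdeal A L = placeIdeal A L) :
    ∃ σ ∈ A.decompositionSubgroup ℚ, res σ = t := by
  obtain ⟨g, hg⟩ := AlgEquiv.restrictNormalHom_surjective (F := ℚ) (K₁ := L) Qbar t
  have h : placeIdeal (g • A) L = placeIdeal A L := by rw [placeIdeal_smul, hg, ht]
  obtain ⟨h', hh', hA'⟩ := exists_fixing_smul_eq h
  refine ⟨h' * g, ?_, ?_⟩
  · rw [MulAction.mem_stabilizer_iff, mul_smul, hA']
  · rw [map_mul, (restrict_eq_one_iff h').mpr hh', one_mul, hg]

/-- Inertia groups surject onto inertia groups at finite level. -/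
theorem map_inertia_eq (hq : q.Prime) (hA : A.LiesOverPrime q) :
    (A.inertiaSubgroupIn ℚ).map res = (placeIdeal A L).inertia (L ≃ₐ[ℚ] L) := by
  refine le_antisymm ?_ fun t ht => ?_
  · rintro _ ⟨σ, hσ, rfl⟩
    exact restrict_mem_inertia hσ
  · have hts : t • placeIdeal A L = placeIdeal A L :=
      Ideal.inertia_le_stabilizer (M := L ≃ₐ[ℚ] L) (placeIdeal A L) ht
    obtain ⟨σ, hσ, rfl⟩ := exists_decomposition_restrict_eq hq hA hts
    obtain ⟨g, hg, hgi⟩ := exists_fixing_inv_mul_mem_inertia (L := L) hσ fun x => by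
      have h1 : res σ • x - x ∈ placeIdeal A L := ht x
      rw [mem_placeIdeal] at h1
      change (((res σ • x : 𝓞 L) : L) : Qbar) - ((x : L) : Qbar) ∈ A.nonunits at h1
      rw [coe_restrict_smul] at h1
      exact h1
    refine ⟨g⁻¹ * σ, hgi, ?_⟩
    rw [map_mul, map_inv, (restrict_eq_one_iff g).mpr hg, inv_one, one_mul]

/-- A Frobenius at finite level lifts to a Frobenius of the place. -/
theorem exists_isFrobeniusAt_restrict_eq (hq : q.Prime) (hA : A.LiesOverPrime q)
    {t : L ≃ₐ[ℚ] L} (ht : IsArithFrobAt ℤ t (placeIdeal A L)) :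
    ∃ σ : Γ, A.IsFrobeniusAt σ q ∧ res σ = t := by
  obtain ⟨φ, hφ⟩ := exists_isFrobeniusAt hq hA
  have h : t * (res φ)⁻¹ ∈ (placeIdeal A L).inertia (L ≃ₐ[ℚ] L) :=
    IsArithFrobAt.mul_inv_mem_inertia ht (isArithFrobAt_restrict hq hA hφ)
  rw [← map_inertia_eq hq hA] at h
  obtain ⟨ι, hι, he⟩ := h
  exact ⟨ι * φ, isFrobeniusAt_inertia_mul hφ hι, by rw [map_mul, he, inv_mul_cancel_right]⟩

/-- A prime is unramified in a finite Galois `L` iff all inertia groups above it fix `L`. -/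
theorem isUnramifiedIn_iff_inertia_le (hq : q.Prime) :
    Algebra.IsUnramifiedIn (𝓞 L) (Ideal.span {(q : ℤ)}) ↔
      ∀ A : ValuationSubring Qbar, A.LiesOverPrime q →
        A.inertiaSubgroupIn ℚ ≤ L.fixingSubgroup := by
  haveI : NumberField L := { to_finiteDimensional := inferInstance }
  haveI : IsGalois ℚ L := isGalois_iff.mpr ⟨inferInstance, inferInstance⟩
  haveI := IsGaloisGroup.of_isFractionRing (L ≃ₐ[ℚ] L) ℤ (𝓞 L) ℚ L
  haveI := Fact.mk hq
  let p : Ideal ℤ := Ideal.span {(q : ℤ)}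
  haveI hp : p.IsMaximal := Int.ideal_span_isMaximal_of_prime q
  haveI : Finite (ℤ ⧸ p) := Finite.of_equiv _ (Int.quotientSpanNatEquivZMod q).symm.toEquiv
  haveI : Finite p.ResidueField :=
    Finite.of_surjective _ (Ideal.bijective_algebraMap_quotient_residueField p).2
  have key : ∀ A : ValuationSubring Qbar, A.LiesOverPrime q →
      ((placeIdeal A L).ramificationIdx ℤ = 1 ↔ A.inertiaSubgroupIn ℚ ≤ L.fixingSubgroup) := by
    intro A hA
    haveI := placeIdeal_isPrime (A := A) (L := L)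
    haveI := placeIdeal_liesOver hq hA (L := L)
    rw [← Ideal.ramificationIdxIn_eq_ramificationIdx p (placeIdeal A L) (L ≃ₐ[ℚ] L),
      ← Ideal.card_inertia_eq_ramificationIdxIn (G := L ≃ₐ[ℚ] L) p (placeIdeal A L),
      ← map_inertia_eq hq hA, Subgroup.card_eq_one, Subgroup.map_eq_bot_iff,
      restrict_ker]
  rw [Algebra.isUnramifiedIn_iff_forall_ramificationIdx_eq_one]
  constructor
  · intro h A hA
    haveI := placeIdeal_isPrime (A := A) (L := L)
    exact (key A hA).mp (h _ (placeIdeal_liesOver hq hA))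
  · intro h P _ hP
    have hqP : (q : 𝓞 L) ∈ P := by
      have h1 : (q : ℤ) ∈ P.under ℤ := hP.over ▸ Ideal.mem_span_singleton_self _
      simpa using h1
    obtain ⟨A, hA, rfl⟩ := exists_placeIdeal_eq hq P hqP
    exact (key A hA).mpr (h A hA)

end Normal

/-- Inside the decomposition group, up to a finite level, everything is Frobenius power times
inertia. -/
theorem exists_pow_mul_inertia_eq (hq : q.Prime) {A : ValuationSubring Qbar}
    (hA : A.LiesOverPrime q) {φ : Γ} (hφ : A.IsFrobeniusAt φ q) {σ : Γ}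
    (hσ : σ ∈ A.decompositionSubgroup ℚ) (L : IntermediateField ℚ Qbar) [FiniteDimensional ℚ L] :
    ∃ k : ℕ, ∃ ι ∈ A.inertiaSubgroupIn ℚ, ∀ x ∈ L, σ x = (φ ^ k * ι) x := by
  let N : IntermediateField ℚ Qbar := IntermediateField.normalClosure ℚ L Qbar
  haveI : FiniteDimensional ℚ N := normalClosure.is_finiteDimensional ℚ L Qbar
  haveI : Normal ℚ N := normalClosure.normal ℚ L Qbar
  haveI : NumberField N := { to_finiteDimensional := inferInstance }
  haveI := Fact.mk hq
  let P := placeIdeal A N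
  haveI hPmax : P.IsMaximal := placeIdeal_isMaximal hq hA
  have hqP : (q : 𝓞 N) ∈ P := natCast_mem_placeIdeal hA
  haveI : Finite (𝓞 N ⧸ P) := Ideal.finiteQuotientOfFreeOfNeBot P fun h => hq.ne_zero (by
    rw [h, Ideal.mem_bot] at hqP; exact_mod_cast hqP)
  letI : Field (𝓞 N ⧸ P) := Ideal.Quotient.field P
  haveI : CharP (𝓞 N ⧸ P) q := ⟨fun n => by
    rw [← map_natCast (Ideal.Quotient.mk P), Ideal.Quotient.eq_zero_iff_mem,
      ← natCast_mem_nonunits_iff hq hA, mem_placeIdeal]
    simp⟩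
  letI : Algebra (ZMod q) (𝓞 N ⧸ P) := ZMod.algebra _ q
  let t := AlgEquiv.restrictNormalHom (F := ℚ) (K₁ := Qbar) N σ
  have ht : ∀ x ∈ P, t • x ∈ P := fun x hx => by
    rw [mem_placeIdeal, coe_restrict_smul]
    exact (apply_mem_nonunits_iff hσ).mpr hx
  let T₀ : (𝓞 N ⧸ P) →+* (𝓞 N ⧸ P) :=
    Ideal.quotientMap P (MulSemiringAction.toRingHom (N ≃ₐ[ℚ] N) (𝓞 N) t) ht
  let T : (𝓞 N ⧸ P) →ₐ[ZMod q] (𝓞 N ⧸ P) :=
    { T₀ with commutes' := RingHom.congr_fun (RingHom.ext_zmod (T₀.comp (algebraMap _ _)) _) }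
  obtain ⟨⟨n, _⟩, hn⟩ := (FiniteField.bijective_frobeniusAlgHom_pow (ZMod q) (𝓞 N ⧸ P)).2 T
  have hmem : ∀ x : 𝓞 N, σ ((x : N) : Qbar) - ((x : N) : Qbar) ^ q ^ n ∈ A.nonunits := by
    intro x
    have key : ∀ (m : ℕ) (z : 𝓞 N ⧸ P),
        (FiniteField.frobeniusAlgHom (ZMod q) (𝓞 N ⧸ P) ^ m) z = z ^ q ^ m := by
      intro m
      induction m with
      | zero => intro z; simp
      | succ m ih =>
        intro z
        rw [pow_succ', AlgHom.mul_apply, ih, FiniteField.coe_frobeniusAlgHom, pow_succ, pow_mul,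
          ZMod.card]
    have h1 : Ideal.Quotient.mk P (t • x) = Ideal.Quotient.mk P (x ^ q ^ n) := by
      rw [map_pow, ← key n]
      exact (DFunLike.congr_fun hn (Ideal.Quotient.mk P x)).symm
    have h2 := Ideal.Quotient.eq.mp h1
    rw [mem_placeIdeal] at h2
    change (((t • x : 𝓞 N) : N) : Qbar) - ((x : N) : Qbar) ^ q ^ n ∈ A.nonunits at h2
    rwa [coe_restrict_smul] at h2
  set s := (φ ^ n)⁻¹ * σ with hs_def
  have hsd : s ∈ A.decompositionSubgroup ℚ :=
    mul_mem (inv_mem (pow_mem hφ.mem_decompositionSubgroup n)) hσ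
  have hs : ∀ x : 𝓞 N, s ((x : N) : Qbar) - ((x : N) : Qbar) ∈ A.nonunits := by
    intro x
    rw [← apply_mem_nonunits_iff (pow_mem hφ.mem_decompositionSubgroup n), map_sub,
      ← AlgEquiv.mul_apply, hs_def, mul_inv_cancel_left]
    have h1 := hmem x
    have h2 := isFrobeniusAt_pow_sub_mem_nonunits hφ n
      (mem_of_isIntegral (A := A) (isIntegral_coe_ringOfIntegers x))
    simpa using sub_mem h1 h2
  obtain ⟨g, hg, hgi⟩ := exists_fixing_inv_mul_mem_inertia hsd hs
  refine ⟨n, g⁻¹ * s, hgi, fun x hx => ?_⟩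
  have hxN : x ∈ N := IntermediateField.le_normalClosure L hx
  have hsN : s x ∈ N := by
    have h1 : ((AlgEquiv.restrictNormalHom (F := ℚ) (K₁ := Qbar) N s ⟨x, hxN⟩ : N) : Qbar) =
      s x := AlgEquiv.restrictNormal_commutes s N ⟨x, hxN⟩
    rw [← h1]
    exact SetLike.coe_mem _
  rw [AlgEquiv.mul_apply, AlgEquiv.mul_apply,
    (IntermediateField.mem_fixingSubgroup_iff _ _).mp (inv_mem hg) _ hsN, ← AlgEquiv.mul_apply,
    hs_def, mul_inv_cancel_left]

/-- Only finitely many primes ramify in a given finite extension. -/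
theorem exists_finset_inertia_le (L : IntermediateField ℚ Qbar) [FiniteDimensional ℚ L] :
    ∃ S : Finset ℕ, ∀ q : ℕ, q.Prime → q ∉ S → ∀ A : ValuationSubring Qbar,
      A.LiesOverPrime q → A.inertiaSubgroupIn ℚ ≤ L.fixingSubgroup := by
  classical
  haveI : NumberField L := { to_finiteDimensional := inferInstance }
  let b := NumberField.integralBasis L
  let D : Finset Qbar := (Finset.univ.image fun i => ((b i : L) : Qbar)).biUnion fun α =>
    ((((minpoly ℚ α).rootSet_finite Qbar).toFinset).image fun β => β - α).filter fun d =>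
      d ≠ 0 ∧ IsIntegral ℤ d
  refine ⟨D.biUnion fun d => ((minpoly ℤ d).coeff 0).natAbs.primeFactors,
    fun q hq hqS A hA σ hσ => ?_⟩
  have hfix : ∀ i, σ ((b i : L) : Qbar) = ((b i : L) : Qbar) := by
    intro i
    set α := ((b i : L) : Qbar) with hα
    have hαint : IsIntegral ℤ α := by
      rw [hα, NumberField.integralBasis_apply]
      exact isIntegral_coe_ringOfIntegers _
    by_contra hne
    have hd := (mem_inertiaSubgroupIn_iff_integral.mp hσ) α hαint
    set d := σ α - α with hd'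
    have hd0 : d ≠ 0 := sub_ne_zero.mpr hne
    have hdint : IsIntegral ℤ d := (hαint.map (σ.toAlgHom.restrictScalars ℤ)).sub hαint
    have hroot : σ α ∈ (minpoly ℚ α).rootSet Qbar :=
      Polynomial.mem_rootSet.mpr ⟨minpoly.ne_zero (qbar_isAlgebraic.isAlgebraic α).isIntegral, by
        rw [Polynomial.aeval_algEquiv, AlgHom.comp_apply, minpoly.aeval, map_zero]⟩
    have hdD : d ∈ D := by
      simp only [D, Finset.mem_biUnion, Finset.mem_image, Finset.mem_filter, Finset.mem_univ,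
        true_and, Set.Finite.mem_toFinset]
      exact ⟨α, ⟨i, rfl⟩, ⟨σ α, hroot, rfl⟩, hd0, hdint⟩
    have hc0 : (minpoly ℤ d).coeff 0 ≠ 0 := fun h0 => by
      refine minpoly.coeff_zero_ne_zero (A := ℚ) hdint.tower_top hd0 ?_
      rw [minpoly.isIntegrallyClosed_eq_field_fractions' ℚ hdint, Polynomial.coeff_map, h0, map_zero]
    have hcmem : (((minpoly ℤ d).coeff 0 : ℤ) : Qbar) ∈ A.nonunits := by
      have h1 := minpoly.aeval ℤ d
      rw [← Polynomial.X_mul_divX_add (minpoly ℤ d), map_add, map_mul, Polynomial.aeval_X,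
        Polynomial.aeval_C, eq_intCast, add_eq_zero_iff_eq_neg'] at h1
      rw [h1]
      refine neg_mem (mul_mem_nonunits_of_mem hd ?_)
      rw [Polynomial.aeval_eq_sum_range]
      exact sum_mem fun j _ => zsmul_mem (pow_mem (mem_of_isIntegral hdint) j) _
    rw [intCast_mem_nonunits_iff hq hA, Int.natCast_dvd] at hcmem
    exact hqS (Finset.mem_biUnion.mpr ⟨d, hdD,
      Nat.mem_primeFactors.mpr ⟨hq, hcmem, Int.natAbs_ne_zero.mpr hc0⟩⟩)
  refine (IntermediateField.mem_fixingSubgroup_iff _ _).mpr fun x hx => ?_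
  have h : (σ.toAlgHom.comp L.val) = L.val := AlgHom.toLinearMap_injective (b.ext hfix)
  exact DFunLike.congr_fun h ⟨x, hx⟩

/-- Minkowski for Galois extensions. -/
theorem eq_bot_of_inertia_le_of_normal (N : IntermediateField ℚ Qbar) [FiniteDimensional ℚ N]
    [Normal ℚ N] (h : ∀ q : ℕ, q.Prime → ∀ A : ValuationSubring Qbar, A.LiesOverPrime q →
      A.inertiaSubgroupIn ℚ ≤ N.fixingSubgroup) : N = ⊥ := by
  haveI : NumberField N := { to_finiteDimensional := inferInstance }
  by_contra hne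
  obtain ⟨p, hp, hp'⟩ := NumberField.exists_not_isUnramifiedIn (K := N) (𝒪 := 𝓞 N)
    (fun h1 => hne (IntermediateField.finrank_eq_one_iff.mp h1))
  exact hp' ((isUnramifiedIn_iff_inertia_le hp).mpr (h p hp))

/-- A finite-level hom on `Γ` killing all inertia groups is trivial. -/
theorem hom_eq_one_of_unramified {M : Type*} [Monoid M] (ρ : Γ →* M)
    (hL : ∃ L : IntermediateField ℚ Qbar, FiniteDimensional ℚ L ∧
      ∀ σ : Γ, (∀ x ∈ L, σ x = x) → ρ σ = 1)
    (h : ∀ q : ℕ, q.Prime → ∀ A : ValuationSubring Qbar, A.LiesOverPrime q →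
      ∀ σ ∈ A.inertiaSubgroupIn ℚ, ρ σ = 1) (σ : Γ) : ρ σ = 1 := by
  obtain ⟨L, hfin, hL⟩ := hL
  let F : IntermediateField ℚ Qbar := IntermediateField.fixedField ρ.ker
  have hle : L.fixingSubgroup ≤ ρ.ker := fun g hg =>
    MonoidHom.mem_ker.mpr (hL g ((IntermediateField.mem_fixingSubgroup_iff _ _).mp hg))
  have hopen : IsOpen (ρ.ker : Set Γ) :=
    Subgroup.isOpen_mono hle (IntermediateField.fixingSubgroup_isOpen L)
  have hclosed : IsClosed (ρ.ker : Set Γ) := Subgroup.isClosed_of_isOpen _ hopen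
  have hker : F.fixingSubgroup = ρ.ker :=
    InfiniteGalois.fixingSubgroup_fixedField (⟨ρ.ker, hclosed⟩ : ClosedSubgroup Γ)
  haveI : FiniteDimensional ℚ F :=
    (InfiniteGalois.isOpen_iff_finite F).mp (by rw [hker]; exact hopen)
  haveI : IsGalois ℚ F :=
    (InfiniteGalois.normal_iff_isGalois F).mp (hker ▸ inferInstance)
  have hbot : F = ⊥ := eq_bot_of_inertia_le_of_normal F fun q hq A hA g hg => by
    rw [hker]; exact MonoidHom.mem_ker.mpr (h q hq A hA g hg)
  refine MonoidHom.mem_ker.mp ?_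
  rw [← hker, hbot, IntermediateField.fixingSubgroup_bot]
  trivial

/-- Minkowski: a finite extension unramified at every prime is trivial. -/
theorem eq_bot_of_inertia_le (L : IntermediateField ℚ Qbar) [FiniteDimensional ℚ L]
    (h : ∀ q : ℕ, q.Prime → ∀ A : ValuationSubring Qbar, A.LiesOverPrime q →
      A.inertiaSubgroupIn ℚ ≤ L.fixingSubgroup) : L = ⊥ := by
  let ρ : Γ →* Equiv.Perm (Γ ⧸ L.fixingSubgroup) := MulAction.toPermHom _ _
  let N : IntermediateField ℚ Qbar := IntermediateField.normalClosure ℚ L Qbar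
  haveI : FiniteDimensional ℚ N := normalClosure.is_finiteDimensional ℚ L Qbar
  haveI : Normal ℚ N := normalClosure.normal ℚ L Qbar
  have hker : ∀ σ : Γ, ρ σ = 1 ↔ ∀ g : Γ, g⁻¹ * σ * g ∈ L.fixingSubgroup := by
    intro σ
    rw [Equiv.ext_iff]
    refine ⟨fun h g => ?_, fun h x => ?_⟩
    · have h1 : ((σ * g : Γ) : Γ ⧸ L.fixingSubgroup) = (g : Γ ⧸ L.fixingSubgroup) := h g
      have h2 := inv_mem (QuotientGroup.eq.mp h1)
      simpa [mul_assoc] using h2
    · induction x using QuotientGroup.induction_on with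
      | H g =>
        show ((σ * g : Γ) : Γ ⧸ L.fixingSubgroup) = (g : Γ ⧸ L.fixingSubgroup)
        rw [QuotientGroup.eq]
        simpa [mul_assoc] using inv_mem (h g)
  have hN : ∀ σ : Γ, (∀ x ∈ N, σ x = x) → ρ σ = 1 := by
    intro σ hσ
    refine (hker σ).mpr fun g => (IntermediateField.mem_fixingSubgroup_iff _ _).mpr fun x hx => ?_
    have hxN : x ∈ N := IntermediateField.le_normalClosure L hx
    have hgN : g x ∈ N := by
      have h1 : ((AlgEquiv.restrictNormalHom (F := ℚ) (K₁ := Qbar) N g ⟨x, hxN⟩ : N) : Qbar) =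
        g x := AlgEquiv.restrictNormal_commutes g N ⟨x, hxN⟩
      rw [← h1]
      exact SetLike.coe_mem _
    rw [AlgEquiv.mul_apply, AlgEquiv.mul_apply, hσ _ hgN]
    exact g.symm_apply_apply x
  have hall : ∀ σ : Γ, ρ σ = 1 := fun σ =>
    hom_eq_one_of_unramified ρ ⟨N, inferInstance, hN⟩ (fun q hq A hA τ hτ => (hker τ).mpr fun g => by
      refine h q hq (g⁻¹ • A) ((liesOverPrime_smul_iff g⁻¹).mpr hA) ?_
      rw [inertiaSubgroupIn_smul_iff]
      simpa [mul_assoc] using hτ) σ
  have htop : L.fixingSubgroup = ⊤ := top_le_iff.mp fun σ _ => by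
    simpa using (hker σ).mp (hall σ) 1
  rw [← InfiniteGalois.fixedField_fixingSubgroup L, htop, InfiniteGalois.fixedField_bot]

/-- A finite-level hom on `Γ` is unramified outside a finite set of primes. -/
theorem exists_finset_unramified {M : Type*} [Monoid M] (ρ : Γ →* M)
    (hL : ∃ L : IntermediateField ℚ Qbar, FiniteDimensional ℚ L ∧
      ∀ σ : Γ, (∀ x ∈ L, σ x = x) → ρ σ = 1) :
    ∃ S : Finset ℕ, ∀ q : ℕ, q.Prime → q ∉ S → ∀ A : ValuationSubring Qbar,
      A.LiesOverPrime q → ∀ σ ∈ A.inertiaSubgroupIn ℚ, ρ σ = 1 := by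
  obtain ⟨L, hfin, hL⟩ := hL
  obtain ⟨S, hS⟩ := exists_finset_inertia_le L
  exact ⟨S, fun q hq hqS A hA σ hσ =>
    hL σ ((IntermediateField.mem_fixingSubgroup_iff _ _).mp (hS q hq hqS A hA hσ))⟩

/-- The range of a finite-level hom is finite. -/
theorem finite_range_of_finiteLevel {M : Type*} [Monoid M] (ρ : Γ →* M)
    (hL : ∃ L : IntermediateField ℚ Qbar, FiniteDimensional ℚ L ∧
      ∀ σ : Γ, (∀ x ∈ L, σ x = x) → ρ σ = 1) : (Set.range ρ).Finite := by
  obtain ⟨L, hfin, hL⟩ := hL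
  let f : Γ → (L →ₐ[ℚ] Qbar) := fun σ => σ.toAlgHom.comp L.val
  have hρ : ∀ σ τ : Γ, f σ = f τ → ρ σ = ρ τ := by
    intro σ τ h
    have h1 : ρ (τ⁻¹ * σ) = 1 := hL _ fun x hx => by
      have h2 : σ x = τ x := DFunLike.congr_fun h ⟨x, hx⟩
      rw [AlgEquiv.mul_apply, h2]
      exact τ.symm_apply_apply x
    calc ρ σ = ρ τ * ρ (τ⁻¹ * σ) := by rw [← map_mul, mul_inv_cancel_left]
      _ = ρ τ := by rw [h1, mul_one]
  classical
  refine (Set.finite_range fun φ : L →ₐ[ℚ] Qbar =>
    if h : ∃ σ, f σ = φ then ρ h.choose else 1).subset ?_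
  rintro _ ⟨σ, rfl⟩
  have hex : ∃ τ, f τ = f σ := ⟨σ, rfl⟩
  exact ⟨f σ, by simp only [dif_pos hex]; exact hρ _ _ hex.choose_spec⟩

end FLTA.Galois
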