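import Mathlib

/-!
# The discriminant of a Galois number field with given ramified primes

If `K/ℚ` is Galois of degree `n`, the different ideal divides `p ^ (v_p n + 1)` locally at every
`p`: it is stable under the Galois group, and the trace of `p ^ (-m)` is `n / p ^ m`.
-/

set_option autoImplicit false

noncomputable section

open NumberField UniqueFactorizationMonoid
open scoped nonZeroDivisors Pointwise

namespace FLTA.Galois

variable {K : Type*} [Field K] [NumberField K]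

theorem mem_differentIdeal_iff_forall (x : 𝓞 K) :
    x ∈ differentIdeal ℤ (𝓞 K) ↔
      ∀ y : K, (∀ a : 𝓞 K, Algebra.trace ℚ K (y * a) ∈ (algebraMap ℤ ℚ).range) →
        (x : K) * y ∈ (algebraMap (𝓞 K) K).range := by
  have h : (x ∈ differentIdeal ℤ (𝓞 K)) ↔
      (algebraMap (𝓞 K) K x) ∈ IsLocalization.coeSubmodule K (differentIdeal ℤ (𝓞 K)) := by
    rw [IsLocalization.mem_coeSubmodule]
    refine ⟨fun h => ⟨x, h, rfl⟩, ?_⟩
    rintro ⟨y, hy, hxy⟩
    rwa [← FaithfulSMul.algebraMap_injective (𝓞 K) K hxy]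
  rw [h, coeSubmodule_differentIdeal ℤ ℚ, Submodule.mem_div_iff_forall_mul_mem]
  refine forall_congr' fun y => ?_
  simp only [Submodule.mem_traceDual, Submodule.mem_one, Algebra.traceForm_apply,
    RingHom.mem_range, forall_exists_index, forall_apply_eq_imp_iff]

theorem smul_mem_differentIdeal {x : 𝓞 K} (hx : x ∈ differentIdeal ℤ (𝓞 K)) (σ : K ≃ₐ[ℚ] K) :
    σ • x ∈ differentIdeal ℤ (𝓞 K) := by
  rw [mem_differentIdeal_iff_forall] at hx ⊢
  intro y hy
  have h := hx (σ.symm y) fun a => by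
    have := hy (σ • a)
    rw [← Algebra.trace_eq_of_algEquiv σ.symm] at this
    have e : ((σ • a : 𝓞 K) : K) = σ (a : K) := rfl
    rwa [e, map_mul, AlgEquiv.symm_apply_apply] at this
  obtain ⟨b, hb⟩ := h
  refine ⟨σ • b, ?_⟩
  have e : ∀ c : 𝓞 K, ((σ • c : 𝓞 K) : K) = σ (c : K) := fun _ => rfl
  change σ (b : K) = σ (x : K) * y
  rw [show (b : K) = (x : K) * σ.symm y from hb, map_mul, AlgEquiv.apply_symm_apply]

theorem smul_differentIdeal (σ : K ≃ₐ[ℚ] K) :
    σ • differentIdeal ℤ (𝓞 K) = differentIdeal ℤ (𝓞 K) := by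
  apply le_antisymm
  · rintro x hx
    rw [Ideal.mem_pointwise_smul_iff_inv_smul_mem] at hx
    simpa using smul_mem_differentIdeal hx σ
  · intro x hx
    rw [Ideal.mem_pointwise_smul_iff_inv_smul_mem]
    exact smul_mem_differentIdeal hx σ⁻¹

theorem not_span_pow_dvd_differentIdeal {p m : ℕ} (hp : p.Prime)
    (hm : ¬ p ^ m ∣ Module.finrank ℚ K) :
    ¬ Ideal.span {((p ^ m : ℕ) : 𝓞 K)} ∣ differentIdeal ℤ (𝓞 K) := by
  rw [Ideal.dvd_iff_le]
  intro hle
  have hne : ((p ^ m : ℕ) : K) ≠ 0 := Nat.cast_ne_zero.mpr (pow_ne_zero m hp.ne_zero)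
  -- `1 / p ^ m` lies in the trace dual, so `n / p ^ m` is an integer
  have hy : ((p ^ m : ℕ) : K)⁻¹ ∈ Submodule.traceDual ℤ ℚ (1 : Submodule (𝓞 K) K) := by
    have hcoe := (FractionalIdeal.coeIdeal_le_coeIdeal K).mpr hle
    rw [coeIdeal_differentIdeal ℤ ℚ K (𝓞 K), FractionalIdeal.coeIdeal_span_singleton] at hcoe
    rw [← FractionalIdeal.coe_dual_one]
    rw [FractionalIdeal.inv_le_comm (by simp) (by rw [Ne, FractionalIdeal.spanSingleton_eq_zero_iff, map_natCast]; exact hne)] at hcoe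
    refine hcoe ?_
    rw [FractionalIdeal.spanSingleton_inv]
    exact (FractionalIdeal.mem_spanSingleton _).mpr ⟨1, by simp⟩
  obtain ⟨z, hz⟩ := Submodule.mem_traceDual.mp hy 1 ⟨1, by simp⟩
  rw [Algebra.traceForm_apply, mul_one] at hz
  have : ((p ^ m : ℕ) : K)⁻¹ = algebraMap ℚ K ((p ^ m : ℕ) : ℚ)⁻¹ := by simp
  rw [this, Algebra.trace_algebraMap, nsmul_eq_mul] at hz
  apply hm
  rw [← Int.natCast_dvd_natCast]
  refine ⟨z, ?_⟩
  have hq : ((p ^ m : ℕ) : ℚ) ≠ 0 := Nat.cast_ne_zero.mpr (pow_ne_zero m hp.ne_zero)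
  have : (Module.finrank ℚ K : ℚ) = ((p ^ m : ℕ) : ℚ) * (z : ℚ) := by
    rw [eq_intCast (algebraMap ℤ ℚ)] at hz
    rw [hz]; field_simp
  exact_mod_cast this

theorem ideal_dvd_of_forall_prime_pow {R : Type*} [CommRing R] [IsDedekindDomain R]
    {I J : Ideal R} (hI : I ≠ ⊥) (hJ : J ≠ ⊥)
    (h : ∀ P : Ideal R, P.IsPrime → P ≠ ⊥ → ∀ k : ℕ, P ^ k ∣ I → P ^ k ∣ J) : I ∣ J := by
  rw [dvd_iff_normalizedFactors_le_normalizedFactors hI hJ, Multiset.le_iff_count]
  intro P
  by_cases hP : P ∈ normalizedFactors I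
  · have hPp := prime_of_normalized_factor P hP
    have key := h P (Ideal.isPrime_of_prime hPp) hPp.ne_zero
      ((normalizedFactors I).count P) (pow_dvd_of_le_emultiplicity (le_of_eq (by
        rw [emultiplicity_eq_count_normalizedFactors hPp.irreducible hI, normalize_eq])))
    rw [pow_dvd_iff_le_emultiplicity,
      emultiplicity_eq_count_normalizedFactors hPp.irreducible hJ, normalize_eq] at key
    exact_mod_cast key
  · rw [Multiset.count_eq_zero_of_notMem hP]
    exact Nat.zero_le _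

theorem prime_pow_dvd_span_of_dvd_differentIdeal [IsGalois ℚ K] {p m k : ℕ} (hp : p.Prime)
    (hm : ¬ p ^ m ∣ Module.finrank ℚ K) (P : Ideal (𝓞 K)) [P.IsPrime] (hpP : (p : 𝓞 K) ∈ P)
    (hPD : P ^ k ∣ differentIdeal ℤ (𝓞 K)) :
    P ^ k ∣ Ideal.span {((p ^ m : ℕ) : 𝓞 K)} := by
  by_contra hk
  apply not_span_pow_dvd_differentIdeal hp hm
  have hne : Ideal.span {((p ^ m : ℕ) : 𝓞 K)} ≠ ⊥ := by
    simp [hp.ne_zero]
  refine ideal_dvd_of_forall_prime_pow hne differentIdeal_ne_bot fun Q hQ hQ0 j hj => ?_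
  rcases Nat.eq_zero_or_pos j with rfl | hj0
  · simp
  have hpQ : (p : 𝓞 K) ∈ Q := by
    apply hQ.mem_of_pow_mem m
    have := Ideal.dvd_iff_le.mp ((dvd_pow_self Q hj0.ne').trans hj)
      (Ideal.mem_span_singleton_self _)
    simpa using this
  have hpp : Prime (p : ℤ) := Nat.prime_iff_prime_int.mp hp
  have hP : Ideal.under ℤ P = Ideal.span {(p : ℤ)} :=
    ((Ideal.liesOver_span_iff ‹P.IsPrime›.ne_top hpp).mpr (by simpa using hpP)).1.symm
  have hQ' : Ideal.under ℤ Q = Ideal.span {(p : ℤ)} :=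
    ((Ideal.liesOver_span_iff hQ.ne_top hpp).mpr (by simpa using hpQ)).1.symm
  have : IsGaloisGroup (K ≃ₐ[ℚ] K) ℤ (𝓞 K) :=
    IsGaloisGroup.of_isFractionRing (K ≃ₐ[ℚ] K) ℤ (𝓞 K) ℚ K
  obtain ⟨σ, rfl⟩ := Algebra.IsInvariant.exists_smul_of_under_eq ℤ (𝓞 K) (K ≃ₐ[ℚ] K) P Q
    (hP.trans hQ'.symm)
  -- the different and `p ^ m` are fixed by `σ`
  have hspan : σ • Ideal.span {((p ^ m : ℕ) : 𝓞 K)} = Ideal.span {((p ^ m : ℕ) : 𝓞 K)} := by
    rw [Ideal.pointwise_smul_def, Ideal.map_span, Set.image_singleton, map_natCast]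
  have smulpow : ∀ i : ℕ, (σ • P) ^ i = σ • P ^ i := fun i => by
    rw [Ideal.pointwise_smul_def, Ideal.pointwise_smul_def, Ideal.map_pow]
  rw [smulpow, ← hspan, Ideal.dvd_iff_le, Ideal.pointwise_smul_le_pointwise_smul_iff,
    ← Ideal.dvd_iff_le] at hj
  rw [smulpow, ← smul_differentIdeal σ, Ideal.dvd_iff_le,
    Ideal.pointwise_smul_le_pointwise_smul_iff, ← Ideal.dvd_iff_le]
  refine dvd_trans (pow_dvd_pow P ?_) hPD
  by_contra hjk
  exact hk ((pow_dvd_pow P (by omega)).trans hj)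

/-- A Galois number field of degree `n` whose ramified primes lie in the finite set `S` has
discriminant at most `(∏ p ∈ S, p ^ (v_p n + 1)) ^ n`. -/
theorem natAbs_discr_le_of_isGalois [IsGalois ℚ K] (S : Finset ℕ) (hS : ∀ p ∈ S, p.Prime)
    (h : ∀ p : ℕ, p.Prime → (p : ℤ) ∣ discr K → p ∈ S) :
    (discr K).natAbs ≤
      (∏ p ∈ S, p ^ ((Module.finrank ℚ K).factorization p + 1)) ^ Module.finrank ℚ K := by
  set n := Module.finrank ℚ K with hn
  set M := ∏ p ∈ S, p ^ (n.factorization p + 1) with hM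
  have hn0 : n ≠ 0 := Module.finrank_pos.ne'
  have hM0 : 0 < M := Finset.prod_pos fun p hp => pow_pos (hS p hp).pos _
  have hdvd : differentIdeal ℤ (𝓞 K) ∣ Ideal.span {((M : ℕ) : 𝓞 K)} := by
    refine ideal_dvd_of_forall_prime_pow differentIdeal_ne_bot
      (by simp [hM0.ne']) fun P hP hP0 k hk => ?_
    rcases Nat.eq_zero_or_pos k with rfl | hk0
    · simp
    have : P.IsMaximal := hP.isMaximal hP0
    obtain ⟨p, hpmax, hp⟩ : ∃ p : ℕ, p.Prime ∧ (p : 𝓞 K) ∈ P := by
      obtain ⟨q, hq⟩ := IsPrincipalIdealRing.principal (P.under ℤ)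
      have hq0 : q ≠ 0 := fun h0 => Ideal.IsMaximal.ne_bot_of_isIntegral_int _
        (Ideal.eq_bot_of_comap_eq_bot (hq.trans (by simp [h0])))
      have hqp : Prime q := by
        rw [← Ideal.span_singleton_prime hq0, ← Ideal.submodule_span_eq, ← hq]; infer_instance
      refine ⟨q.natAbs, Int.prime_iff_natAbs_prime.mp hqp, ?_⟩
      have : (q : 𝓞 K) ∈ P := by
        have : q ∈ P.under ℤ := hq ▸ Submodule.mem_span_singleton_self q
        simpa [Ideal.under_def] using this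
      rcases q.natAbs_eq with e | e
      · rw [e, Int.cast_natCast] at this
        exact this
      · rw [e, Int.cast_neg, neg_mem_iff, Int.cast_natCast] at this
        exact this
    have hPd : P ∣ differentIdeal ℤ (𝓞 K) := (dvd_pow_self P hk0.ne').trans hk
    have hpd : (p : ℤ) ∣ discr K := by
      rw [← Int.dvd_natAbs, Int.natCast_dvd_natCast, ← absNorm_differentIdeal K (𝓞 K)]
      refine dvd_trans ?_ (Ideal.absNorm_dvd_absNorm_of_le (Ideal.dvd_iff_le.mp hPd))
      have hover := (Ideal.liesOver_span_iff hP.ne_top (Nat.prime_iff_prime_int.mp hpmax)).mpr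
        (show ((p : ℤ) : 𝓞 K) ∈ P by simpa using hp)
      have e := Ideal.natAbs_pow_inertiaDeg (P := P) (p : ℤ)
      rw [Int.natAbs_natCast] at e
      rw [← e]
      exact dvd_pow_self _ (Ideal.inertiaDeg_pos ..).ne'
    refine (prime_pow_dvd_span_of_dvd_differentIdeal hpmax
      (Nat.pow_succ_factorization_not_dvd hn0 hpmax) P hp hk).trans ?_
    rw [Ideal.dvd_iff_le, Ideal.span_singleton_le_span_singleton]
    exact Nat.cast_dvd_cast (Finset.dvd_prod_of_mem _ (h p hpmax hpd))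
  have := Ideal.absNorm_dvd_absNorm_of_le (Ideal.dvd_iff_le.mp hdvd)
  rw [absNorm_differentIdeal K, Ideal.absNorm_span_singleton,
    ← map_natCast (algebraMap ℤ (𝓞 K)) M, Algebra.norm_algebraMap, Int.natAbs_pow,
    Int.natAbs_natCast, RingOfIntegers.rank] at this
  exact Nat.le_of_dvd (pow_pos hM0 _) this

end FLTA.Galois
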