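import Fermat.Prelude.Def_GroupCohomology_ContinuousUnramified
import Fermat.Agent.Galois.FinitenessDiscr
import Fermat.Agent.Galois.PlacesFinite

/-!
# Finiteness of number fields unramified outside a finite set of primes

Hermite's theorem combined with an elementary discriminant bound: for a Galois number field of
degree `n` the different divides `p ^ (v_p(n) + 1)` locally at every prime `p`, since the trace of
`p ^ (-m)` is `n / p ^ m`.
-/

set_option autoImplicit false

noncomputable section

open scoped Pointwise NumberField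

namespace FLTA.Galois

local notation "Qbar" => AlgebraicClosure ℚ
local notation "GQ" => AlgebraicClosure ℚ ≃ₐ[ℚ] AlgebraicClosure ℚ

local instance : Algebra.IsAlgebraic ℚ Qbar := AlgebraicClosure.isAlgebraic ℚ
local instance : IsAlgClosure ℚ Qbar := ⟨inferInstance, inferInstance⟩
local instance : Normal ℚ Qbar := IsAlgClosure.normal ℚ _
local instance : IsGalois ℚ Qbar := {}

/-- An open subgroup is the fixing subgroup of its fixed field, whose degree is its index. -/
theorem exists_fixingSubgroup_eq (H : Subgroup GQ) {F : IntermediateField ℚ Qbar}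
    [FiniteDimensional ℚ F] (hFH : F.fixingSubgroup ≤ H) :
    ∃ E : IntermediateField ℚ Qbar, E ≤ F ∧ E.fixingSubgroup = H ∧
      Module.finrank ℚ E = H.index := by
  have hopen : IsOpen (H : Set GQ) :=
    Subgroup.isOpen_mono hFH (IntermediateField.fixingSubgroup_isOpen F)
  have hclosed : IsClosed (H : Set GQ) := H.isClosed_of_isOpen hopen
  have hfix : (IntermediateField.fixedField H).fixingSubgroup = H :=
    InfiniteGalois.fixingSubgroup_fixedField ⟨H, hclosed⟩
  refine ⟨IntermediateField.fixedField H, ?_, hfix, ?_⟩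
  · refine le_trans (IntermediateField.fixedField_antitone hFH) ?_
    rw [InfiniteGalois.fixedField_fixingSubgroup]
  · rw [IntermediateField.finrank_eq_fixingSubgroup_index, hfix]

/-- A normal field unramified outside `S`, of degree at most `(finrank F)!`, containing `F`. -/
theorem exists_normal_isUnramifiedOutside {S : Finset Nat.Primes}
    {F : IntermediateField ℚ Qbar} (hF : F.IsUnramifiedOutside S) :
    ∃ E : IntermediateField ℚ Qbar, Normal ℚ E ∧ E.IsUnramifiedOutside S ∧ F ≤ E ∧
      Module.finrank ℚ E ≤ (Module.finrank ℚ F).factorial := by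
  haveI := hF.1
  set N := IntermediateField.normalClosure ℚ F Qbar with hN
  have hFN : F ≤ N := F.le_normalClosure
  have hNle : N.fixingSubgroup ≤ F.fixingSubgroup.normalCore :=
    haveI : N.fixingSubgroup.Normal := (InfiniteGalois.normal_iff_isGalois N).mpr inferInstance
    Subgroup.normal_le_normalCore.mpr (IntermediateField.fixingSubgroup_antitone hFN)
  obtain ⟨E, hEN, hEfix, hEdeg⟩ := exists_fixingSubgroup_eq _ hNle
  haveI hEfin : FiniteDimensional ℚ E :=
    FiniteDimensional.of_injective (IntermediateField.inclusion hEN).toLinearMap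
      (IntermediateField.inclusion_injective hEN)
  have hEgal : IsGalois ℚ E := by
    exact (InfiniteGalois.normal_iff_isGalois E).mp (hEfix ▸ inferInstance)
  refine ⟨E, inferInstance, ⟨hEfin, fun q hq A hA => ?_⟩, ?_, ?_⟩
  · rw [hEfix]
    intro σ hσ g
    exact hF.2 q hq (g • A) ((liesOverPrime_smul_iff g).mpr hA)
      ((inertiaSubgroupIn_smul_iff g).mpr (by simpa [mul_assoc] using hσ))
  · rw [← InfiniteGalois.fixedField_fixingSubgroup F, ← InfiniteGalois.fixedField_fixingSubgroup E,
      hEfix]
    exact IntermediateField.fixedField_antitone (Subgroup.normalCore_le _)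
  · have hidx : F.fixingSubgroup.index = Module.finrank ℚ F :=
      (IntermediateField.finrank_eq_fixingSubgroup_index Qbar F).symm
    have hpos : 0 < Module.finrank ℚ F := Module.finrank_pos
    haveI : F.fixingSubgroup.FiniteIndex := ⟨by omega⟩
    rw [hEdeg, Subgroup.normalCore_eq_ker, Subgroup.index_ker, ← hidx, Subgroup.index_eq_card,
      ← Nat.card_perm]
    exact Nat.card_le_card_of_injective _ Subtype.val_injective

/-- The normal closure of a field unramified outside `S` is unramified outside `S`. -/
theorem isUnramifiedOutside_normalClosure {S : Finset Nat.Primes}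
    {F : IntermediateField ℚ Qbar} (hF : F.IsUnramifiedOutside S) :
    (IntermediateField.normalClosure ℚ F Qbar).IsUnramifiedOutside S := by
  obtain ⟨E, hE, hEu, hFE, -⟩ := exists_normal_isUnramifiedOutside hF
  haveI : @Normal ℚ E _ _ E.algebra' := hE
  exact hEu.of_le (IntermediateField.normalClosure_le_iff_of_normal.mpr hFE)

/-- Every number field inside `Qbar` is unramified outside some finite set of primes. -/
theorem exists_isUnramifiedOutside (F : IntermediateField ℚ Qbar) [FiniteDimensional ℚ F] :
    ∃ S : Finset Nat.Primes, F.IsUnramifiedOutside S := by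
  obtain ⟨S, hS⟩ := exists_finset_inertia_le F
  refine ⟨S.subtype Nat.Prime, inferInstance, fun q hq => hS q q.2 ?_⟩
  exact fun h => hq (Finset.mem_subtype.mpr h)

/-- A prime dividing the discriminant of a normal field unramified outside `S` lies in `S`. -/
theorem mem_of_dvd_discr {S : Finset Nat.Primes} {L : IntermediateField ℚ Qbar} [Normal ℚ L]
    [NumberField L] (hL : L.IsUnramifiedOutside S) {p : ℕ} (hp : p.Prime)
    (hd : (p : ℤ) ∣ NumberField.discr L) : (⟨p, hp⟩ : Nat.Primes) ∈ S := by
  by_contra h
  refine (NumberField.not_dvd_discr_iff_isUnramifiedIn L (𝓞 L)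
    (Nat.prime_iff_prime_int.mp hp)).mpr ?_ hd
  exact (isUnramifiedIn_iff_inertia_le hp).mpr fun A hA => hL.2 ⟨p, hp⟩ h A hA

theorem finite_setOf_normal_isUnramifiedOutside (S : Finset Nat.Primes) (D : ℕ) :
    {F : IntermediateField ℚ Qbar |
      Normal ℚ F ∧ F.IsUnramifiedOutside S ∧ Module.finrank ℚ F ≤ D}.Finite := by
  classical
  set N := (∏ p ∈ S.image Subtype.val, p ^ (D + 1)) ^ D with hN
  refine ((NumberField.finite_of_discr_bdd Qbar N).image Subtype.val).subset ?_
  rintro F ⟨hnor, hF, hD⟩
  refine ⟨⟨F, hF.1⟩, ?_, rfl⟩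
  haveI := hF.1
  haveI : NumberField F := ⟨⟩
  haveI : IsGalois ℚ F := { __ := hnor }
  have hprime : ∀ p ∈ S.image Subtype.val, Nat.Prime p := by
    intro p hp
    obtain ⟨q, -, rfl⟩ := Finset.mem_image.mp hp
    exact q.2
  have key := natAbs_discr_le_of_isGalois (K := F) (S.image Subtype.val) hprime fun p hp hd =>
    Finset.mem_image.mpr ⟨⟨p, hp⟩, mem_of_dvd_discr hF hp hd, rfl⟩
  change |NumberField.discr F| ≤ (N : ℤ)
  rw [Int.abs_eq_natAbs, Int.ofNat_le]
  refine key.trans ?_
  have hone : ∀ p ∈ S.image Subtype.val, 1 ≤ p := fun p hp => (hprime p hp).one_le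
  calc _ ≤ (∏ p ∈ S.image Subtype.val, p ^ (D + 1)) ^ Module.finrank ℚ F := by
        gcongr with p hp
        · exact hone p hp
        · exact ((Nat.factorization_lt p Module.finrank_pos.ne').le).trans hD
    _ ≤ N := Nat.pow_le_pow_right
        (Finset.prod_pos fun p hp => pow_pos (hone p hp) _) hD

/-- Hermite: finitely many fields of bounded degree unramified outside `S`. -/
theorem finite_setOf_isUnramifiedOutside (S : Finset Nat.Primes) (d : ℕ) :
    {F : IntermediateField ℚ Qbar | F.IsUnramifiedOutside S ∧ Module.finrank ℚ F ≤ d}.Finite := by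
  have h := finite_setOf_normal_isUnramifiedOutside S d.factorial
  refine (h.biUnion (t := fun E => {F : IntermediateField ℚ Qbar | F ≤ E})
    fun E hE => ?_).subset ?_
  · haveI := hE.2.1.1
    haveI : IsGalois ℚ E := { __ := hE.1 }
    haveI : @Finite (@IntermediateField ℚ E _ _ E.algebra') :=
      Field.finite_intermediateField_of_exists_primitive_element ℚ E
        (Field.exists_primitive_element ℚ E)
    refine (Set.finite_range (IntermediateField.lift (F := E))).subset fun F hF => ?_
    exact ⟨IntermediateField.restrict hF, IntermediateField.lift_restrict hF⟩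
  · rintro F ⟨hF, hd⟩
    obtain ⟨E, hE, hEu, hFE, hEd⟩ := exists_normal_isUnramifiedOutside hF
    exact Set.mem_iUnion₂.mpr ⟨E, ⟨hE, hEu, hEd.trans (Nat.factorial_le hd)⟩, hFE⟩

/-- One normal field unramified outside `S` contains all those of degree at most `d`. -/
theorem exists_isUnramifiedOutside_bound (S : Finset Nat.Primes) (d : ℕ) :
    ∃ L : IntermediateField ℚ Qbar, L.IsUnramifiedOutside S ∧ Normal ℚ L ∧
      ∀ F : IntermediateField ℚ Qbar, F.IsUnramifiedOutside S → Module.finrank ℚ F ≤ d → F ≤ L := by
  have hfin := finite_setOf_isUnramifiedOutside S d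
  set L := hfin.toFinset.sup id with hL
  have hLu : L.IsUnramifiedOutside S :=
    Finset.sup_induction (p := fun F => IntermediateField.IsUnramifiedOutside F S)
      (IntermediateField.isUnramifiedOutside_bot S) (fun _ h _ h' => h.sup h')
      fun F hF => (hfin.mem_toFinset.mp hF).1
  refine ⟨IntermediateField.normalClosure ℚ L Qbar, isUnramifiedOutside_normalClosure hLu,
    normalClosure.normal ℚ L Qbar, fun F hF hd => ?_⟩
  exact le_trans (Finset.le_sup (f := id) (hfin.mem_toFinset.mpr ⟨hF, hd⟩)) L.le_normalClosure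

/-- A subgroup containing the fixing subgroup of a field unramified outside `S` is the fixing
subgroup of such a field, of degree its index. -/
theorem exists_isUnramifiedOutside_of_subgroup {S : Finset Nat.Primes} (H : Subgroup GQ)
    {F : IntermediateField ℚ Qbar} (hF : F.IsUnramifiedOutside S) (hFH : F.fixingSubgroup ≤ H) :
    ∃ E : IntermediateField ℚ Qbar, E.IsUnramifiedOutside S ∧
      E.fixingSubgroup = H ∧ Module.finrank ℚ E = H.index := by
  haveI := hF.1
  obtain ⟨E, hEF, hE, hd⟩ := exists_fixingSubgroup_eq H hFH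
  exact ⟨E, hF.of_le hEF, hE, hd⟩

/-- An open subgroup containing all inertia groups outside `S` is the fixing subgroup of a
field unramified outside `S`. -/
theorem exists_isUnramifiedOutside_of_inertia_le {S : Finset Nat.Primes} (H : Subgroup GQ)
    {F : IntermediateField ℚ Qbar} [FiniteDimensional ℚ F] (hFH : F.fixingSubgroup ≤ H)
    (hH : ∀ q : Nat.Primes, q ∉ S → ∀ A : ValuationSubring Qbar,
      A.LiesOverPrime (q : ℕ) → A.inertiaSubgroupIn ℚ ≤ H) :
    ∃ E : IntermediateField ℚ Qbar, E.IsUnramifiedOutside S ∧ E.fixingSubgroup = H := by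
  obtain ⟨E, hEF, hE, -⟩ := exists_fixingSubgroup_eq H hFH
  refine ⟨E, ⟨?_, fun q hq A hA => hE.symm ▸ hH q hq A hA⟩, hE⟩
  exact FiniteDimensional.of_injective (IntermediateField.inclusion hEF).toLinearMap
    (IntermediateField.inclusion_injective hEF)

/-- A single level through which every homomorphism to a group of order at most `n`, factoring
through a field unramified outside `S`, factors. -/
theorem exists_level_monoidHom (S : Finset Nat.Primes) (n : ℕ) :
    ∃ L : IntermediateField ℚ Qbar, L.IsUnramifiedOutside S ∧ Normal ℚ L ∧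
      ∀ (H : Type*) [Group H] [Finite H], Nat.card H ≤ n → ∀ f : GQ →* H,
        (∃ F : IntermediateField ℚ Qbar, F.IsUnramifiedOutside S ∧
          ∀ s ∈ F.fixingSubgroup, f s = 1) → ∀ s ∈ L.fixingSubgroup, f s = 1 := by
  obtain ⟨L, hLu, hLn, hL⟩ := exists_isUnramifiedOutside_bound S n
  refine ⟨L, hLu, hLn, ?_⟩
  intro H _ _ hcard f ⟨F, hF, hf⟩ s hs
  obtain ⟨E, hEu, hE, hEd⟩ := exists_isUnramifiedOutside_of_subgroup f.ker hF hf
  have hd : Module.finrank ℚ E ≤ n := by
    rw [hEd, Subgroup.index_ker]
    exact (Nat.card_le_card_of_injective _ Subtype.val_injective).trans hcard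
  have := IntermediateField.fixingSubgroup_antitone (hL E hEu hd) hs
  rwa [hE] at this

/-- Finitely many homomorphisms to a finite group are unramified outside `S`. -/
theorem finite_setOf_monoidHom_unramifiedOutside (S : Finset Nat.Primes) (H : Type*) [Group H]
    [Finite H] :
    {f : GQ →* H | ∃ F : IntermediateField ℚ Qbar, F.IsUnramifiedOutside S ∧
      ∀ s ∈ F.fixingSubgroup, f s = 1}.Finite := by
  obtain ⟨L, hLu, -, hL⟩ := exists_level_monoidHom S (Nat.card H)
  haveI := hLu.1
  have hidx : L.fixingSubgroup.FiniteIndex := ⟨by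
    rw [← IntermediateField.finrank_eq_fixingSubgroup_index]; exact Module.finrank_pos.ne'⟩
  refine Set.Finite.of_finite_image (f := fun f : GQ →* H =>
    fun x : GQ ⧸ L.fixingSubgroup => f x.out) (Set.toFinite _) ?_
  intro f hf g hg hfg
  ext a
  have h1 : ∀ φ : GQ →* H, (∀ s ∈ L.fixingSubgroup, φ s = 1) →
      φ (QuotientGroup.mk (s := L.fixingSubgroup) a).out = φ a := fun φ hφ => by
    obtain ⟨s, hs⟩ := QuotientGroup.mk_out_eq_mul L.fixingSubgroup a
    rw [hs, map_mul, hφ s s.2, mul_one]
  rw [← h1 f (hL H le_rfl f hf), ← h1 g (hL H le_rfl g hg)]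
  exact congrFun hfg _

/-- The inertia formulation of `finite_setOf_monoidHom_unramifiedOutside`. -/
theorem finite_setOf_monoidHom_of_inertia (S : Finset Nat.Primes) (H : Type*) [Group H] [Finite H] :
    {f : GQ →* H |
      (∃ F : IntermediateField ℚ Qbar, FiniteDimensional ℚ F ∧ ∀ s ∈ F.fixingSubgroup, f s = 1) ∧
      ∀ q : Nat.Primes, q ∉ S → ∀ A : ValuationSubring Qbar, A.LiesOverPrime (q : ℕ) →
        ∀ s ∈ A.inertiaSubgroupIn ℚ, f s = 1}.Finite := by
  refine (finite_setOf_monoidHom_unramifiedOutside S H).subset ?_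
  rintro f ⟨⟨F, hFfin, hF⟩, hf⟩
  haveI := hFfin
  obtain ⟨E, hEu, hE⟩ := exists_isUnramifiedOutside_of_inertia_le (S := S) f.ker hF hf
  exact ⟨E, hEu, fun s hs => MonoidHom.mem_ker.mp (hE ▸ hs)⟩

end FLTA.Galois
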