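import Fermat.Agent.Galois.Finiteness

/-!
# Finiteness of continuous `H¹` of `G_S` with finite coefficients

A cocycle restricted to the kernel of the action is a homomorphism into a finite abelian group;
its kernel is open of bounded index, so Hermite gives one common level for all cocycles.
-/

set_option autoImplicit false

open CategoryTheory groupCohomology

noncomputable section

namespace FLTA.Galois

local notation "Qbar" => AlgebraicClosure ℚ
local notation "GQ" => AlgebraicClosure ℚ ≃ₐ[ℚ] AlgebraicClosure ℚ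

local instance : Algebra.IsAlgebraic ℚ Qbar := AlgebraicClosure.isAlgebraic ℚ
local instance : IsAlgClosure ℚ Qbar := ⟨inferInstance, inferInstance⟩
local instance : Normal ℚ Qbar := IsAlgClosure.normal ℚ _
local instance : IsGalois ℚ Qbar := {}

variable {k : Type} [CommRing k] (S : Finset Nat.Primes) (M : Rep k GQ) [Finite M]

/-- Finite smooth action: one level fixes everything. -/
theorem exists_level_action
    (hsm : ∀ m : M, ∃ F : IntermediateField ℚ Qbar, FiniteDimensional ℚ F ∧
      ∀ s ∈ F.fixingSubgroup, M.ρ s m = m) :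
    ∃ F : IntermediateField ℚ Qbar, FiniteDimensional ℚ F ∧
      ∀ s ∈ F.fixingSubgroup, ∀ m : M, M.ρ s m = m := by
  choose F hFd hF using hsm
  haveI := hFd
  exact ⟨⨆ m, F m, IntermediateField.finiteDimensional_iSup_of_finite,
    fun s hs m => hF m s (IntermediateField.fixingSubgroup_antitone (le_iSup F m) hs)⟩

/-- The common-level argument, for a field `F₀` fixing `M` and unramified outside `T ⊇ S`. -/
theorem exists_level_of_action {T : Finset Nat.Primes} (hST : S ⊆ T)
    {F₀ : IntermediateField ℚ Qbar} (hF₀ : F₀.IsUnramifiedOutside T)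
    (hfix : ∀ s ∈ F₀.fixingSubgroup, ∀ m : M, M.ρ s m = m) :
    ∃ L : IntermediateField ℚ Qbar, L.IsUnramifiedOutside T ∧ Normal ℚ L ∧
      (∀ s ∈ L.fixingSubgroup, ∀ m : M, M.ρ s m = m) ∧
      ∀ c : cocycles₁ M, IsLevelConstantS₁ S c →
        ∀ g s, s ∈ L.fixingSubgroup → c.val (g * s) = c.val g := by
  haveI := hF₀.1
  obtain ⟨L₁, hL₁, -, hL⟩ :=
    exists_isUnramifiedOutside_bound T (F₀.fixingSubgroup.index * Nat.card M)
  refine ⟨IntermediateField.normalClosure ℚ (L₁ ⊔ F₀ : IntermediateField ℚ Qbar) Qbar,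
    isUnramifiedOutside_normalClosure (hL₁.sup hF₀), normalClosure.normal ℚ _ Qbar, ?_, ?_⟩
  · exact fun s hs => hfix s (IntermediateField.fixingSubgroup_antitone
      (le_trans le_sup_right (IntermediateField.le_normalClosure _)) hs)
  intro c hc g s hs
  obtain ⟨F, hFu, hF⟩ := hc.mono hST
  -- the restriction of `c` to the kernel of the action
  let φ : ↥F₀.fixingSubgroup →* Multiplicative M :=
    MonoidHom.mk' (fun h => Multiplicative.ofAdd (c.val (h : GQ))) fun a b => by
      rw [Subgroup.coe_mul, ← ofAdd_add]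
      congr 1
      have := (mem_cocycles₁_iff c.val).mp c.2 a b
      rw [hfix a a.2] at this
      exact this.trans (add_comm _ _)
  have hφ : ∀ h : GQ, h ∈ φ.ker.map F₀.fixingSubgroup.subtype ↔
      h ∈ F₀.fixingSubgroup ∧ c.val h = 0 := by
    intro h
    constructor
    · rintro ⟨⟨x, hx⟩, hxk, rfl⟩
      exact ⟨hx, congrArg Multiplicative.toAdd (MonoidHom.mem_ker.mp hxk)⟩
    · rintro ⟨hh, h0⟩
      exact ⟨⟨h, hh⟩, MonoidHom.mem_ker.mpr (congrArg Multiplicative.ofAdd h0), rfl⟩
  have hc1 : c.val 1 = 0 := cocycles₁_map_one c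
  obtain ⟨E, hEu, hE, hEd⟩ := exists_isUnramifiedOutside_of_subgroup
    (φ.ker.map F₀.fixingSubgroup.subtype) (hFu.sup hF₀) fun x hx => (hφ x).mpr
      ⟨IntermediateField.fixingSubgroup_antitone le_sup_right hx, by
        have := hF 1 x (IntermediateField.fixingSubgroup_antitone le_sup_left hx)
        rw [one_mul] at this
        exact this.trans hc1⟩
  have hEle : E ≤ L₁ := by
    refine hL E hEu ?_
    rw [hEd, Subgroup.index_map_subtype, Subgroup.index_ker, mul_comm]
    exact Nat.mul_le_mul_left _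
      ((Nat.card_le_card_of_injective _ Subtype.val_injective).trans
        (Nat.card_congr Multiplicative.toAdd).le)
  have hsE : s ∈ φ.ker.map F₀.fixingSubgroup.subtype := hE ▸
    IntermediateField.fixingSubgroup_antitone (le_trans hEle
      (le_trans le_sup_left (IntermediateField.le_normalClosure _))) hs
  have := (mem_cocycles₁_iff c.val).mp c.2 g s
  rw [((hφ s).mp hsE).2, map_zero, zero_add] at this
  exact this

/-- All cocycles of level unramified outside `S` have one common level. -/
theorem exists_level_cocyclesS₁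
    (hsm : ∀ m : M, ∃ F : IntermediateField ℚ Qbar, FiniteDimensional ℚ F ∧
      ∀ s ∈ F.fixingSubgroup, M.ρ s m = m) :
    ∃ L : IntermediateField ℚ Qbar, FiniteDimensional ℚ L ∧ Normal ℚ L ∧
      (∀ s ∈ L.fixingSubgroup, ∀ m : M, M.ρ s m = m) ∧
      ∀ c : cocycles₁ M, IsLevelConstantS₁ S c →
        ∀ g s, s ∈ L.fixingSubgroup → c.val (g * s) = c.val g := by
  obtain ⟨F₀, hd, hfix⟩ := exists_level_action M hsm
  haveI := hd
  obtain ⟨T₀, hT₀⟩ := exists_isUnramifiedOutside F₀
  classical
  obtain ⟨L, hLu, hL⟩ := exists_level_of_action S M (Finset.subset_union_left (s₂ := T₀))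
    (hT₀.mono Finset.subset_union_right) hfix
  exact ⟨L, hLu.1, hL⟩

/-- If the action is also unramified outside `S`, the common level can be taken unramified
outside `S`. -/
theorem exists_levelS_cocyclesS₁
    (hsm : ∀ m : M, ∃ F : IntermediateField ℚ Qbar, FiniteDimensional ℚ F ∧
      ∀ s ∈ F.fixingSubgroup, M.ρ s m = m)
    (hMur : ∀ q : Nat.Primes, q ∉ S → ∀ A : ValuationSubring Qbar,
      A.LiesOverPrime (q : ℕ) → ∀ g ∈ A.inertiaSubgroupIn ℚ, M.ρ g = 1) :
    ∃ L : IntermediateField ℚ Qbar, L.IsUnramifiedOutside S ∧ Normal ℚ L ∧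
      (∀ s ∈ L.fixingSubgroup, ∀ m : M, M.ρ s m = m) ∧
      ∀ c : cocycles₁ M, IsLevelConstantS₁ S c →
        ∀ g s, s ∈ L.fixingSubgroup → c.val (g * s) = c.val g := by
  obtain ⟨F, hd, hfix⟩ := exists_level_action M hsm
  haveI := hd
  obtain ⟨E, hEu, hE⟩ := exists_isUnramifiedOutside_of_inertia_le (S := S) (MonoidHom.ker M.ρ)
    (F := F) (fun s hs => MonoidHom.mem_ker.mpr (LinearMap.ext (hfix s hs)))
    fun q hq A hA g hg => MonoidHom.mem_ker.mpr (hMur q hq A hA g hg)
  refine exists_level_of_action S M (Finset.Subset.refl S) hEu fun s hs m => ?_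
  rw [hE, MonoidHom.mem_ker] at hs
  rw [hs]; rfl

theorem finite_levelCocyclesS₁
    (hsm : ∀ m : M, ∃ F : IntermediateField ℚ Qbar, FiniteDimensional ℚ F ∧
      ∀ s ∈ F.fixingSubgroup, M.ρ s m = m) :
    Finite (levelCocyclesS₁ S M) := by
  obtain ⟨L, hLd, -, -, hL⟩ := exists_level_cocyclesS₁ S M hsm
  haveI := hLd
  haveI : L.fixingSubgroup.FiniteIndex := ⟨by
    rw [← IntermediateField.finrank_eq_fixingSubgroup_index]; exact Module.finrank_pos.ne'⟩
  refine Finite.of_injective
    (fun (c : levelCocyclesS₁ S M) (x : GQ ⧸ L.fixingSubgroup) => c.1.val x.out) fun c d hcd => ?_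
  apply Subtype.ext
  apply Subtype.ext
  funext a
  obtain ⟨s, hs⟩ := QuotientGroup.mk_out_eq_mul L.fixingSubgroup a
  have h := congrFun hcd (QuotientGroup.mk a)
  dsimp only at h
  rw [hs, hL c.1 c.2 a s s.2, hL d.1 d.2 a s s.2] at h
  exact h

theorem finite_continuousH1S
    (hsm : ∀ m : M, ∃ F : IntermediateField ℚ Qbar, FiniteDimensional ℚ F ∧
      ∀ s ∈ F.fixingSubgroup, M.ρ s m = m) :
    Finite (continuousH1S S M) := by
  haveI := finite_levelCocyclesS₁ S M hsm
  exact (((Set.toFinite (levelCocyclesS₁ S M : Set (cocycles₁ M))).image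
    (H1π M).hom).subset (by rw [continuousH1S, Submodule.map_coe])).to_subtype

end FLTA.Galois
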